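import Fermat.Agent.Lifting.Criterion.Basic

/-!
# Congruence modules along a degeneracy map

An injection `δ` with saturated image and a surjective adjoint `cor`, `cor ∘ δ = c`, multiplies the
congruence module by at least `O ⧸ c` per unit of rank.
-/

set_option autoImplicit false
set_option linter.style.haveILetI false

noncomputable section

namespace Fermat.Agent.Lifting

open IsLocalRing Criterion

variable {O : Type} [CommRing O] [IsDomain O] [IsDiscreteValuationRing O]
  [IsAdicComplete (maximalIdeal O) O] [Finite (ResidueField O)]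
  {T : Type} [CommRing T] [IsLocalRing T] [IsReduced T] [Algebra O T] [Module.Finite O T]
  {M : Type} [AddCommGroup M] [Module O M] [Module.Finite O M] [Module.Free O M]
  [Module T M] [IsScalarTower O T M] [FaithfulSMul T M] (x : T →ₐ[O] O)

omit [IsAdicComplete (maximalIdeal O) O] [IsLocalRing T] [FaithfulSMul T M] in
/-- The congruence module grows by the congruence factor. -/
theorem card_omega_mul_le {T' : Type} [CommRing T'] [IsLocalRing T'] [IsReduced T'] [Algebra O T']
    [Module.Finite O T'] {M' : Type} [AddCommGroup M'] [Module O M'] [Module.Finite O M']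
    [Module.Free O M'] [Module T' M'] [IsScalarTower O T' M'] [FaithfulSMul T' M']
    (π : T' →ₐ[O] T) (hπ : Function.Surjective π) (δ : M →ₗ[O] M') (cor : M' →ₗ[O] M) (c : O) (hc : c ≠ 0)
    (hδ : ∀ (t : T') (m : M), δ (π t • m) = t • δ m)
    (hcor : ∀ (t : T') (m : M'), cor (t • m) = π t • cor m)
    (hcomp : ∀ m ∈ eigenPart x M, cor (δ m) = c • m) (hsurj : Function.Surjective cor)
    (hsat : ∀ (m : M) (y : M'), ∀ ϖ : O, Irreducible ϖ → δ m = ϖ • y → ∃ m₀ : M, m = ϖ • m₀)
    (hinj : ∀ y ∈ eigenPart (x.comp π) M', cor y = 0 → y = 0) :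
    eigenRank (x.comp π) M' = eigenRank x M ∧
      Nat.card (Omega x M) * Nat.card (O ⧸ Ideal.span {c}) ^ eigenRank x M ≤
        Nat.card (Omega (x.comp π) M') := by
  obtain ⟨ϖ, hϖ⟩ := IsDiscreteValuationRing.exists_irreducible O
  obtain ⟨e, he⟩ := exists_isEigenElt x
  obtain ⟨e', he'⟩ := exists_isEigenElt (x.comp π)
  set P := (eigenPart x M).restrictScalars O with hP
  set P' := (eigenPart (x.comp π) M').restrictScalars O with hP'
  set Q := (perpPart x M).restrictScalars O with hQ
  have hδmem : ∀ m ∈ P, δ m ∈ P' := fun m hm => (mem_eigenPart _ M').2 fun t ht => by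
    rw [← hδ, (mem_eigenPart x M).1 hm (π t) ht, map_zero]
  have hcormem : ∀ y ∈ P', cor y ∈ P := fun y hy => (mem_eigenPart x M).2 fun t ht => by
    obtain ⟨t, rfl⟩ := hπ t
    rw [← hcor, (mem_eigenPart _ M').1 hy t ht, map_zero]
  have hδinj : ∀ m ∈ P, δ m = 0 → m = 0 := fun m hm h0 => by
    have := hcomp m hm
    rw [h0, map_zero] at this
    exact (smul_eq_zero.1 this.symm).resolve_left hc
  have hdiv : ∀ (k : ℕ) (m : M) (y : M'), m ∈ P → δ m = ϖ ^ k • y → ∃ m₀ ∈ P, δ m₀ = y := by
    intro k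
    induction k with
    | zero => exact fun m y hm h => ⟨m, hm, by simpa using h⟩
    | succ k ih =>
      intro m y hm h
      rw [pow_succ', mul_smul] at h
      obtain ⟨m₁, rfl⟩ := hsat m _ ϖ hϖ h
      refine ih m₁ y ((mem_eigenPart x M).2 fun t ht => ?_) ?_
      · have := (mem_eigenPart x M).1 hm t ht
        rw [smul_comm] at this
        exact (smul_eq_zero.1 this).resolve_left hϖ.ne_zero
      · rw [map_smul] at h
        exact smul_right_injective _ hϖ.ne_zero h
  have himg : ∀ y ∈ P', ∃ m ∈ P, δ m = y := by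
    intro y hy
    have hm := hcormem y hy
    have hkey : δ (cor y) = c • y := by
      refine sub_eq_zero.1 (hinj _ ?_ ?_)
      · exact sub_mem (hδmem _ hm) (P'.smul_mem _ hy)
      · rw [map_sub, map_smul, hcomp _ hm, sub_self]
    obtain ⟨k, u, hu⟩ := IsDiscreteValuationRing.eq_unit_mul_pow_irreducible hc hϖ
    obtain ⟨m₀, hm₀, hm₀'⟩ := hdiv k (cor y) ((u : O) • y) hm
      (by rw [hkey, hu, smul_smul, mul_comm])
    exact ⟨((u⁻¹ : Oˣ) : O) • m₀, P.smul_mem _ hm₀, by
      rw [map_smul, hm₀', smul_smul, Units.inv_mul, one_smul]⟩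
  have hrank : eigenRank (x.comp π) M' = eigenRank x M := by
    let δP : P →ₗ[O] P' := δ.restrict hδmem
    have hbij : Function.Bijective δP := by
      refine ⟨(injective_iff_map_eq_zero δP).2 fun m hm => Subtype.ext
        (hδinj m m.2 (congrArg Subtype.val hm)), fun y => ?_⟩
      obtain ⟨m, hm, hy⟩ := himg y y.2
      exact ⟨⟨m, hm⟩, Subtype.ext hy⟩
    exact (LinearEquiv.ofBijective δP hbij).finrank_eq.symm
  refine ⟨hrank, ?_⟩
  set N := P.map (c • LinearMap.id) ⊔ Q with hN
  have hk := card_omega_mul_card (M := M) he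
  have hb := card_quot_smul_eigen_sup (M := M) he (c)
  have hne := card_quot_span_pow_ne_zero he.ne_zero (eigenRank x M)
  rw [card_quot_span_mul he.ne_zero, mul_pow, ← hk] at hb
  have hk0 : Nat.card (P ⧸ LinearMap.range (eigenMap (M := M) he)) ≠ 0 := fun h0 => by
    rw [← hk, h0, mul_zero] at hne
    exact hne rfl
  have hcard : Nat.card (M ⧸ N) =
      Nat.card (Omega x M) * Nat.card (O ⧸ Ideal.span {c}) ^ eigenRank x M := by
    refine Nat.eq_of_mul_eq_mul_right (Nat.pos_of_ne_zero hk0) (hb.trans ?_)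
    rw [mul_right_comm]
  rw [← hcard]
  haveI : Finite (Omega (x.comp π) M') := finite_omega_of_isEigenElt he'
  haveI : Finite (M' ⧸ ((eigenPart (x.comp π) M' ⊔ perpPart (x.comp π) M').restrictScalars O)) :=
    ‹Finite (Omega (x.comp π) M')›
  have hsub : (eigenPart (x.comp π) M' ⊔ perpPart (x.comp π) M').restrictScalars O ≤
      LinearMap.ker (N.mkQ.comp cor) := by
    intro y hy
    obtain ⟨p, hp, q, hq, rfl⟩ := Submodule.mem_sup.1 hy
    rw [LinearMap.mem_ker, LinearMap.comp_apply, map_add, map_add]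
    have h1 : cor p ∈ N := by
      obtain ⟨m, hm, rfl⟩ := himg p hp
      rw [hcomp m hm]
      exact Submodule.mem_sup_left ⟨m, hm, rfl⟩
    have h2 : cor q ∈ N := by
      obtain ⟨t, ht, htq⟩ := hq
      exact Submodule.mem_sup_right ⟨π t, ht, by rw [← hcor, htq, map_zero]⟩
    rw [← map_add, Submodule.mkQ_apply, Submodule.Quotient.mk_eq_zero]
    exact add_mem h1 h2
  exact Nat.card_le_card_of_surjective (Submodule.liftQ _ (N.mkQ.comp cor) hsub) fun z => by
    obtain ⟨m, rfl⟩ := Submodule.mkQ_surjective _ z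
    obtain ⟨y, rfl⟩ := hsurj m
    exact ⟨Submodule.Quotient.mk y, rfl⟩

end Fermat.Agent.Lifting
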