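import Fermat.Agent.Lifting.Criterion.Presentation

/-!
# The numerical criterion

`#Omega ≤ #Phi ^ d`; in case of equality a surjection onto the algebra which does not increase the
cotangent module is bijective. Complete intersections with free modules have equality.
-/

set_option autoImplicit false
set_option linter.style.haveILetI false

noncomputable section

namespace Fermat.Agent.Lifting

open IsLocalRing MvPowerSeries RingTheory.Sequence Fermat.Agent.Patching Criterion
open scoped Matrix

namespace Criterion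

variable {O : Type} [CommRing O] {T : Type} [CommRing T] [Algebra O T] {x : T →ₐ[O] O} {n : ℕ}
  {γ : MvPowerSeries (Fin n) O →ₐ[O] T}
  {f : Fin n → MvPowerSeries (Fin n) O} {a : Matrix (Fin n) (Fin n) (MvPowerSeries (Fin n) O)}

theorem det_mul_eq_zero (hsurj : Function.Surjective γ) (hγ : ∀ i, x (γ (X i)) = 0)
    (hf : ∀ i, f i ∈ RingHom.ker γ) (ha : f = a *ᵥ X) {t : T} (ht : x t = 0) :
    γ a.det * t = 0 := by
  obtain ⟨g, rfl⟩ := hsurj t
  rw [apply_eq_constantCoeff x γ hγ] at ht
  obtain ⟨c, rfl⟩ := exists_mulVec_X ht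
  rw [← map_mul, Finset.mul_sum, map_sum]
  refine Finset.sum_eq_zero fun j _ => ?_
  have h : a.det * X j = ∑ k, a.adjugate j k * f k := by
    have := congrFun (Matrix.mulVec_mulVec (X : Fin n → MvPowerSeries (Fin n) O) a.adjugate a) j
    rw [Matrix.adjugate_mul, ← ha, Matrix.smul_mulVec, Matrix.one_mulVec] at this
    exact this.symm
  rw [mul_left_comm, map_mul, h, map_sum]
  simp [RingHom.mem_ker.1 (hf _)]

theorem linCoeff_eq_of_mulVec (ha : f = a *ᵥ X) (i : Fin n) :
    linCoeff (f i) = fun j => constantCoeff (a i j) := by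
  rw [ha]
  exact linCoeff_sum_mul_X (fun j => a i j)

theorem constantCoeff_det (ha : f = a *ᵥ X) :
    constantCoeff a.det = (Matrix.of fun i => linCoeff (f i)).det := by
  rw [RingHom.map_det]
  congr 1
  ext i j
  rw [Matrix.of_apply, linCoeff_eq_of_mulVec ha]
  rfl

theorem linearIndependent_iff_det_ne_zero [IsDomain O] (v : Fin n → Fin n → O) :
    LinearIndependent O v ↔ (Matrix.of v).det ≠ 0 := by
  rw [Fintype.linearIndependent_iff, Ne, ← Matrix.exists_vecMul_eq_zero_iff]
  simp only [Matrix.vecMul_eq_sum, Matrix.of_apply, not_exists, not_and]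
  constructor
  · intro h c hc hsum
    exact hc (funext (h c hsum))
  · intro h c hsum i
    by_contra hi
    exact h c (fun hc => hi (congrFun hc i)) hsum

variable [IsDomain O] [IsDiscreteValuationRing O]

theorem isEigenElt_det (hsurj : Function.Surjective γ) (hγ : ∀ i, x (γ (X i)) = 0)
    (hf : ∀ i, f i ∈ RingHom.ker γ) (ha : f = a *ᵥ X)
    (hli : LinearIndependent O fun i => linCoeff (f i)) : IsEigenElt x (γ a.det) := by
  refine ⟨fun t ht => det_mul_eq_zero hsurj hγ hf ha ht, ?_⟩
  rw [apply_eq_constantCoeff x γ hγ, constantCoeff_det ha]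
  exact (linearIndependent_iff_det_ne_zero _).1 hli

theorem card_phi_eq (hsurj : Function.Surjective γ) (hγ : ∀ i, x (γ (X i)) = 0) (ha : f = a *ᵥ X)
    (hli : LinearIndependent O fun i => linCoeff (f i))
    (hspan : Submodule.span O (Set.range fun i => linCoeff (f i)) = lattice γ) :
    Nat.card (Phi x) = Nat.card (O ⧸ Ideal.span {x (γ a.det)}) := by
  rw [card_phi x γ hγ hsurj, ← hspan, card_quot_span_range_det hli,
    apply_eq_constantCoeff x γ hγ, constantCoeff_det ha]

variable [IsAdicComplete (maximalIdeal O) O] [IsLocalRing T] [IsReduced T] [Module.Finite O T]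

/-- Regular relations whose linear parts are a basis of all linear parts of relations. -/
theorem exists_relations {ϖ : O} (hϖ : Irreducible ϖ) (hsurj : Function.Surjective γ)
    (hγ : ∀ i, x (γ (X i)) = 0) :
    ∃ (f : Fin n → MvPowerSeries (Fin n) O) (a : Matrix (Fin n) (Fin n) (MvPowerSeries (Fin n) O)),
      (∀ i, f i ∈ RingHom.ker γ) ∧ f = a *ᵥ X ∧
      LinearIndependent O (fun i => linCoeff (f i)) ∧
      Submodule.span O (Set.range fun i => linCoeff (f i)) = lattice γ ∧
      IsRegular (MvPowerSeries (Fin n) O)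
        (List.ofFn (Fin.cons (C ϖ) f : Fin (n + 1) → MvPowerSeries (Fin n) O)) := by
  obtain ⟨e, he⟩ := exists_isEigenElt x
  have hmem : ∀ v : Fin n → O, x e • v ∈ lattice γ := fun v => by
    rw [← ker_phiMap x γ hγ hsurj, LinearMap.mem_ker, map_smul, he.smul_phi_eq_zero]
  have hrk : Module.finrank O (lattice γ) = n := by
    refine le_antisymm ((Submodule.finrank_le _).trans (by simp)) ?_
    have h := LinearMap.finrank_le_finrank_of_injective
      (f := LinearMap.codRestrict (lattice γ) (x e • (LinearMap.id : (Fin n → O) →ₗ[O] Fin n → O))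
        hmem) fun v w hvw => smul_right_injective _ he.ne_zero (congrArg Subtype.val hvw)
    simpa using h
  let bl := (Module.finBasis O (lattice γ)).reindex (finCongr hrk)
  choose f₀ hf₀ hf₀L using fun i => (bl i).2
  obtain ⟨f, hf, hfL, hreg⟩ := exists_regular_relations hϖ
    (fun g hg => constantCoeff_eq_zero_of_mem x γ hγ hg) (radical_X_mem hϖ x γ hsurj hγ) f₀ hf₀
  choose a ha using fun i => exists_mulVec_X (constantCoeff_eq_zero_of_mem x γ hγ (hf i))
  have hL : (fun i => linCoeff (f i)) = fun i => ((bl i : lattice γ) : Fin n → O) :=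
    funext fun i => (hfL i).trans (hf₀L i)
  refine ⟨f, Matrix.of a, hf, funext fun i => (ha i).symm, ?_, ?_, hreg⟩
  · rw [hL]
    exact bl.linearIndependent.map' (lattice γ).subtype (Submodule.ker_subtype _)
  · rw [hL, show (fun i => ((bl i : lattice γ) : Fin n → O)) = (lattice γ).subtype ∘ bl from rfl,
      Set.range_comp, ← Submodule.map_span, bl.span_eq, Submodule.map_top, Submodule.range_subtype]

omit [IsDomain O] [IsDiscreteValuationRing O] [IsAdicComplete (maximalIdeal O) O] [IsReduced T] in
theorem isLocalHom_of_point [IsLocalRing O] (x : T →ₐ[O] O) : IsLocalHom (algebraMap O T) :=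
  ⟨fun a ha => by simpa using ha.map x⟩

omit [IsReduced T] in
theorem exists_presentation_of_finite (x : T →ₐ[O] O) :
    ∃ (n : ℕ) (γ : MvPowerSeries (Fin n) O →ₐ[O] T),
      Function.Surjective γ ∧ ∀ i, x (γ (X i)) = 0 := by
  haveI := isLocalHom_of_point x
  haveI := IsNoetherianRing.of_finite O T
  haveI : IsAdicComplete (maximalIdeal T) T :=
    IsLocalRing.isAdicComplete_of_module_finite (𝒪 := O)
  exact exists_presentation x

variable {M : Type} [AddCommGroup M] [Module O M] [Module.Finite O M] [Module.Free O M]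
  [Module T M] [IsScalarTower O T M] [FaithfulSMul T M]

omit [IsAdicComplete (maximalIdeal O) O] [IsReduced T] in
/-- The relations generate all relations if the eigen part is saturated. -/
theorem ker_eq_span {ϖ : O} (hϖ : Irreducible ϖ) (hsurj : Function.Surjective γ)
    (hf : ∀ i, f i ∈ RingHom.ker γ) (ha : f = a *ᵥ X)
    (hreg : IsRegular (MvPowerSeries (Fin n) O)
      (List.ofFn (Fin.cons (C ϖ) f : Fin (n + 1) → MvPowerSeries (Fin n) O)))
    (he : IsEigenElt x (γ a.det)) (hmax : Function.Surjective (eigenMap (M := M) he)) :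
    RingHom.ker γ = Ideal.span (Set.range f) := by
  have hle : Ideal.span (Set.range f) ≤ RingHom.ker γ :=
    Ideal.span_le.2 (Set.range_subset_iff.2 hf)
  have hC : γ (C ϖ) = algebraMap O T ϖ := γ.commutes ϖ
  have hJ : RingHom.ker γ ≤ relIdealMod f ϖ := by
    intro z hz
    by_contra hzI
    obtain ⟨t, ht⟩ := exists_mul_sub_det_mem_relIdealMod hϖ hreg ha hzI
    obtain ⟨s, hs, _, hw, hsum⟩ := Submodule.mem_sup.1 ht
    obtain ⟨w, rfl⟩ := Ideal.mem_span_singleton'.1 hw
    have hh : γ a.det = ϖ • (-γ w) := by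
      have := congrArg γ hsum
      rw [map_add, map_sub, map_mul, map_mul, hC, RingHom.mem_ker.1 (hle hs),
        RingHom.mem_ker.1 hz] at this
      rw [Algebra.smul_def]
      linear_combination this
    set P := (eigenPart x M).restrictScalars O
    have hPP : P ≤ Ideal.span {ϖ} • P := by
      intro p hp
      obtain ⟨m, hm⟩ := hmax ⟨p, hp⟩
      have hp' : ϖ • ((-γ w) • m) = p := by
        rw [← smul_assoc, ← hh]
        exact congrArg Subtype.val hm
      rw [← hp']
      refine Submodule.smul_mem_smul (Ideal.mem_span_singleton_self ϖ) ?_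
      refine (mem_eigenPart x M).2 fun u hu => ?_
      have := (mem_eigenPart x M).1 (show p ∈ eigenPart x M from hp) u hu
      rw [← hp', smul_comm] at this
      exact (smul_eq_zero.1 this).resolve_left hϖ.ne_zero
    have hP : P = ⊥ := Submodule.eq_bot_of_le_smul_of_le_jacobson_bot _ _
      (IsNoetherian.noetherian P) hPP
      (by rw [IsLocalRing.jacobson_eq_maximalIdeal _ bot_ne_top, hϖ.maximalIdeal_eq])
    have hpos := eigenRank_pos_of_isEigenElt (M := M) he
    change 0 < Module.finrank O P at hpos
    rw [hP] at hpos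
    simp at hpos
  refine le_antisymm ?_ hle
  refine Submodule.le_of_le_smul_of_le_jacobson_bot (I := Ideal.span {C ϖ})
    (IsNoetherian.noetherian _) ?_ ?_
  · rw [IsLocalRing.jacobson_eq_maximalIdeal _ bot_ne_top, Ideal.span_le, Set.singleton_subset_iff]
    rw [← span_range_param hϖ]
    exact Ideal.subset_span ⟨0, by simp [param]⟩
  · intro z hz
    obtain ⟨s, hs, _, hw, rfl⟩ := Submodule.mem_sup.1 (hJ hz)
    obtain ⟨w, rfl⟩ := Ideal.mem_span_singleton'.1 hw
    refine Submodule.add_mem_sup hs ?_
    rw [mul_comm, smul_eq_mul]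
    refine Ideal.mul_mem_mul (Ideal.mem_span_singleton_self _) (RingHom.mem_ker.2 ?_)
    refine torsionFree_algebra (M := M) hϖ.ne_zero ?_
    have h0 := RingHom.mem_ker.1 hz
    rw [map_add, RingHom.mem_ker.1 (hle hs), zero_add, map_mul, hC] at h0
    rw [Algebra.smul_def, mul_comm, h0]

end Criterion

variable {O : Type} [CommRing O] [IsDomain O] [IsDiscreteValuationRing O]
  [IsAdicComplete (maximalIdeal O) O] [Finite (ResidueField O)]
  {T : Type} [CommRing T] [IsLocalRing T] [IsReduced T] [Algebra O T] [Module.Finite O T]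
  {M : Type} [AddCommGroup M] [Module O M] [Module.Finite O M] [Module.Free O M]
  [Module T M] [IsScalarTower O T M] [FaithfulSMul T M] (x : T →ₐ[O] O)

omit [IsAdicComplete (maximalIdeal O) O] [IsLocalRing T] [FaithfulSMul T M] in
/-- The congruence module is finite. -/
theorem finite_omega : Finite (Omega x M) := by
  obtain ⟨e, he⟩ := exists_isEigenElt x
  exact finite_omega_of_isEigenElt he

omit [IsAdicComplete (maximalIdeal O) O] [IsLocalRing T] in
/-- The cotangent module is finite. -/
theorem finite_phi : Finite (Phi x) := by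
  obtain ⟨e, he⟩ := exists_isEigenElt x
  exact Nat.finite_of_card_ne_zero (card_phi_ne_zero he)

omit [IsAdicComplete (maximalIdeal O) O] [IsLocalRing T] [Finite (ResidueField O)] in
/-- The eigen part is nonzero. -/
theorem eigenRank_pos [Nontrivial M] : 0 < eigenRank x M := by
  obtain ⟨e, he⟩ := exists_isEigenElt x
  exact eigenRank_pos_of_isEigenElt he

omit [FaithfulSMul T M] in
/-- The congruence module is bounded by the cotangent module. -/
theorem card_omega_le :
    Nat.card (Omega x M) ≤ Nat.card (Phi x) ^ eigenRank x M := by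
  obtain ⟨ϖ, hϖ⟩ := IsDiscreteValuationRing.exists_irreducible O
  obtain ⟨n, γ, hsurj, hγ⟩ := exists_presentation_of_finite x
  obtain ⟨f, a, hf, ha, hli, hspan, -⟩ := exists_relations hϖ hsurj hγ
  rw [card_phi_eq hsurj hγ ha hli hspan]
  exact card_omega_le_of_isEigenElt (isEigenElt_det hsurj hγ hf ha hli)

omit [Finite (ResidueField O)] [IsAdicComplete (maximalIdeal O) O] [IsLocalRing T] [IsReduced T]
  [Module.Finite O T] [FaithfulSMul T M] in
theorem Criterion.surjective_eigenMap_of_card [Finite (ResidueField O)] {e : T}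
    (he : IsEigenElt x e)
    (h : Nat.card (O ⧸ Ideal.span {x e}) ^ eigenRank x M ≤ Nat.card (Omega x M)) :
    Function.Surjective (eigenMap (M := M) he) := by
  have hmul := card_omega_mul_card (M := M) he
  have hne := card_quot_span_pow_ne_zero he.ne_zero (eigenRank x M)
  set k := Nat.card (((eigenPart x M).restrictScalars O) ⧸ LinearMap.range (eigenMap (M := M) he))
  have hk : k = 1 := by
    by_contra hk
    rcases Nat.lt_or_gt_of_ne hk with h' | h'
    · rw [Nat.lt_one_iff.1 h', mul_zero] at hmul
      exact hne hmul.symm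
    · have hΩ : 0 < Nat.card (Omega x M) :=
        (Nat.pos_of_ne_zero hne).trans_le h
      nlinarith [Nat.mul_le_mul_left (Nat.card (Omega x M)) h']
  have := (Nat.card_eq_one_iff_unique.1 hk).1
  rw [Submodule.Quotient.subsingleton_iff] at this
  exact LinearMap.range_eq_top.1 this

/-- **The numerical criterion.** -/
theorem bijective_of_card_le [Nontrivial M]
    (hM : Nat.card (Phi x) ^ eigenRank x M ≤ Nat.card (Omega x M))
    {R : Type} [CommRing R] [IsLocalRing R] [IsNoetherianRing R]
    [IsAdicComplete (maximalIdeal R) R] [Algebra O R] (π : R →ₐ[O] T)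
    (hπ : Function.Surjective π) [Finite (Phi (x.comp π))]
    (hR : Nat.card (Phi (x.comp π)) ≤ Nat.card (Phi x)) : Function.Bijective π := by
  classical
  obtain ⟨ϖ, hϖ⟩ := IsDiscreteValuationRing.exists_irreducible O
  obtain ⟨n, γR, hsR, hγR⟩ := exists_presentation (x.comp π)
  have hsurj : Function.Surjective (π.comp γR) := hπ.comp hsR
  have hγ : ∀ i, x (π.comp γR (X i)) = 0 := hγR
  obtain ⟨f, a, hf, ha, hli, hspan, hreg⟩ := exists_relations hϖ hsurj hγ
  have hphi := card_phi_eq hsurj hγ ha hli hspan
  have he := isEigenElt_det hsurj hγ hf ha hli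
  have hker := ker_eq_span hϖ hsurj hf ha hreg he
    (surjective_eigenMap_of_card x he (hphi ▸ hM) : Function.Surjective (eigenMap (M := M) he))
  have hle : lattice γR ≤ lattice (π.comp γR) := Submodule.map_mono fun g hg => by
    show π (γR g) = 0
    rw [show γR g = 0 from hg, map_zero]
  haveI : Finite ((Fin n → O) ⧸ lattice γR) :=
    Finite.of_equiv _ ((LinearEquiv.symm ((phiMap (x.comp π) γR hγR).quotKerEquivOfSurjective
      (phiMap_surjective (x.comp π) γR hγR hsR))).trans
        (Submodule.quotEquivOfEq _ _ (ker_phiMap (x.comp π) γR hγR hsR))).toEquiv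
  have hsur : Function.Surjective (Submodule.factor hle) := fun q => by
    obtain ⟨v, rfl⟩ := Submodule.mkQ_surjective _ q
    exact ⟨Submodule.Quotient.mk v, rfl⟩
  have hbij := hsur.bijective_of_nat_card_le (by
    rw [← card_phi (x.comp π) γR hγR hsR, ← card_phi x (π.comp γR) hγ hsurj]
    exact hR)
  have heq : lattice (π.comp γR) ≤ lattice γR := fun v hv => by
    rw [← Submodule.Quotient.mk_eq_zero]
    refine hbij.1 ?_
    rw [map_zero]
    exact (Submodule.Quotient.mk_eq_zero _).2 hv
  choose g hg hgL using fun i => heq (linCoeff_mem_lattice (π.comp γR) (hf i))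
  have hgJ : ∀ i, g i ∈ Ideal.span (Set.range f) := fun i => by
    rw [← hker]
    show π (γR (g i)) = 0
    rw [show γR (g i) = 0 from hg i, map_zero]
  choose Cm hCm using fun i => Ideal.mem_span_range_iff_exists_fun.1 (hgJ i)
  let Cmat : Matrix (Fin n) (Fin n) (MvPowerSeries (Fin n) O) := Matrix.of Cm
  have hC1 : Cmat.map constantCoeff = 1 := by
    refine Matrix.ext fun i => congrFun ?_
    refine hli.fintypeLinearCombination_injective ?_
    simp only [Fintype.linearCombination_apply]
    have : linCoeff (g i) = ∑ j, constantCoeff (Cm i j) • linCoeff (f j) := by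
      rw [← hCm i, map_sum]
      exact Finset.sum_congr rfl fun j _ =>
        linCoeff_mul _ (constantCoeff_eq_zero_of_mem x (π.comp γR) hγ (hf j))
    rw [hgL i] at this
    simp [Cmat, Matrix.one_apply, ← this]
  have hunit : IsUnit Cmat.det := by
    rw [MvPowerSeries.isUnit_iff_constantCoeff, RingHom.map_det, RingHom.mapMatrix_apply, hC1,
      Matrix.det_one]
    exact isUnit_one
  have hfR : ∀ k, f k ∈ RingHom.ker γR := by
    intro k
    have h1 : g = Cmat *ᵥ f := funext fun i => (hCm i).symm
    have h2 : f = Cmat⁻¹ *ᵥ g := by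
      rw [h1, Matrix.mulVec_mulVec, Matrix.nonsing_inv_mul _ hunit, Matrix.one_mulVec]
    rw [h2]
    show ∑ j, Cmat⁻¹ k j * g j ∈ _
    exact Submodule.sum_mem _ fun j _ => Ideal.mul_mem_left _ _ (hg j)
  refine ⟨(injective_iff_map_eq_zero π).2 fun r hr => ?_, hπ⟩
  obtain ⟨z, rfl⟩ := hsR r
  have hz : z ∈ RingHom.ker (π.comp γR) := hr
  rw [hker] at hz
  exact Ideal.span_le.2 (Set.range_subset_iff.2 hfR) hz

/-- A free module over a complete intersection has the largest congruence module. -/
theorem card_omega_eq_of_free [Nontrivial M] [Module.Free T M] {r : ℕ}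
    (γ : MvPowerSeries (Fin r) O →ₐ[O] T) (hγ : Function.Surjective γ)
    (hx : ∀ i, x (γ (MvPowerSeries.X i)) = 0)
    (f : Fin r → MvPowerSeries (Fin r) O) (hker : RingHom.ker γ = Ideal.span (Set.range f))
    (hreg : ∀ ϖ : O, Irreducible ϖ → RingTheory.Sequence.IsWeaklyRegular
      (MvPowerSeries (Fin r) O) (List.ofFn f ++ [MvPowerSeries.C ϖ])) :
    Nat.card (Omega x M) = Nat.card (Phi x) ^ eigenRank x M := by
  classical
  obtain ⟨ϖ, hϖ⟩ := IsDiscreteValuationRing.exists_irreducible O
  have hf : ∀ i, f i ∈ RingHom.ker γ := fun i => hker ▸ Ideal.subset_span ⟨i, rfl⟩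
  have hf0 : ∀ i, constantCoeff (f i) = 0 := fun i => constantCoeff_eq_zero_of_mem x γ hx (hf i)
  choose a₀ ha₀ using fun i => exists_mulVec_X (hf0 i)
  set a : Matrix (Fin r) (Fin r) (MvPowerSeries (Fin r) O) := Matrix.of a₀
  have ha : f = a *ᵥ X := funext fun i => (ha₀ i).symm
  have hCm : (C ϖ : MvPowerSeries (Fin r) O) ∈ maximalIdeal _ := by
    rw [← span_range_param hϖ]
    exact Ideal.subset_span ⟨0, by simp [param]⟩
  have hreg' : IsRegular (MvPowerSeries (Fin r) O)
      (List.ofFn (Fin.cons (C ϖ) f : Fin (r + 1) → MvPowerSeries (Fin r) O)) := by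
    have h := IsRegular.of_isWeaklyRegular_of_mem_maximalIdeal (MvPowerSeries (Fin r) O)
      (fun g hg => ?_) (hreg ϖ hϖ)
    · refine IsLocalRing.isRegular_of_perm h ?_
      rw [List.ofFn_succ, Fin.cons_zero]
      simpa only [Fin.cons_succ] using List.perm_append_singleton _ _
    · rcases List.mem_append.1 hg with hg | hg
      · obtain ⟨i, rfl⟩ := List.mem_ofFn.1 hg
        rw [mem_maximalIdeal, mem_nonunits_iff, isUnit_iff_constantCoeff, hf0 i]
        exact not_isUnit_zero
      · rw [List.mem_singleton.1 hg]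
        exact hCm
  have hdet0 : γ a.det ≠ 0 := fun h0 => det_notMem_relIdealMod hϖ hreg' ha
    (Submodule.mem_sup_left (hker ▸ (RingHom.mem_ker.2 h0 : a.det ∈ RingHom.ker γ)))
  have hxh : x (γ a.det) ≠ 0 := fun h0 => hdet0 (IsReduced.eq_zero _
    ⟨2, by rw [sq]; exact det_mul_eq_zero hγ hx hf ha h0⟩)
  have he : IsEigenElt x (γ a.det) := ⟨fun t ht => det_mul_eq_zero hγ hx hf ha ht, hxh⟩
  have hli : LinearIndependent O fun i => linCoeff (f i) := by
    rw [linearIndependent_iff_det_ne_zero, ← constantCoeff_det ha,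
      ← apply_eq_constantCoeff x γ hx]
    exact hxh
  have hspan : Submodule.span O (Set.range fun i => linCoeff (f i)) = lattice γ := by
    refine le_antisymm (Submodule.span_le.2 (Set.range_subset_iff.2 fun i =>
      linCoeff_mem_lattice γ (hf i))) ?_
    rintro _ ⟨g, hg, rfl⟩
    obtain ⟨c, rfl⟩ := Ideal.mem_span_range_iff_exists_fun.1 (hker ▸ hg : g ∈ Ideal.span (Set.range f))
    rw [map_sum]
    refine Submodule.sum_mem _ fun i _ => ?_
    rw [linCoeff_mul _ (hf0 i)]
    exact Submodule.smul_mem _ _ (Submodule.subset_span ⟨i, rfl⟩)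
  have hT0 : ∀ {o : O}, o ≠ 0 → ∀ {t : T}, o • t = 0 → t = 0 := fun ho _ h =>
    torsionFree_algebra (M := M) ho h
  have heigT : (eigenPart x T).restrictScalars O ≤ O ∙ γ a.det := by
    refine Submodule.le_of_le_smul_of_le_jacobson_bot (I := Ideal.span {ϖ})
      (IsNoetherian.noetherian _)
      (by rw [IsLocalRing.jacobson_eq_maximalIdeal _ bot_ne_top, hϖ.maximalIdeal_eq]) ?_
    intro z hz
    obtain ⟨Z, rfl⟩ := hγ z
    obtain ⟨u, hu⟩ := socle_relIdealMod hϖ hreg' ha (z := Z) fun w hw => by
      rw [← span_range_param hϖ] at hw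
      obtain ⟨c, rfl⟩ := Ideal.mem_span_range_iff_exists_fun.1 hw
      rw [Finset.sum_mul]
      refine Submodule.sum_mem _ fun j _ => ?_
      rw [mul_assoc]
      refine Ideal.mul_mem_left _ _ ?_
      refine Fin.cases ?_ (fun j => ?_) j
      · exact Submodule.mem_sup_right (Ideal.mem_span_singleton'.2 ⟨Z, by simp [param, mul_comm]⟩)
      · refine Submodule.mem_sup_left (hker ▸ RingHom.mem_ker.2 ?_)
        rw [map_mul, ← smul_eq_mul]
        simp only [param, Fin.cons_succ]
        exact (mem_eigenPart x T).1 hz _ (hx j)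
    obtain ⟨s, hs, _, hw, hsum⟩ := Submodule.mem_sup.1 hu
    obtain ⟨w, rfl⟩ := Ideal.mem_span_singleton'.1 hw
    have hz' : γ Z = x (γ u) • γ a.det + ϖ • γ w := by
      have := congrArg γ hsum
      rw [map_add, map_sub, map_mul, map_mul, show γ (C ϖ) = algebraMap O T ϖ from γ.commutes ϖ,
        RingHom.mem_ker.1 (hker ▸ hs : s ∈ RingHom.ker γ)] at this
      rw [← he.mul_eq_smul, Algebra.smul_def]
      linear_combination -this
    have hwz : γ w ∈ eigenPart x T := by
      refine (mem_eigenPart x T).2 fun t ht => hT0 hϖ.ne_zero ?_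
      have h1 : t • γ Z = 0 := (mem_eigenPart x T).1 hz t ht
      rw [smul_eq_mul] at h1 ⊢
      rw [hz', ← he.mul_eq_smul, mul_add, mul_left_comm t, ← mul_assoc,
        he.mul_eq_zero t ht, zero_mul, zero_add, mul_smul_comm] at h1
      exact h1
    rw [hz']
    exact Submodule.add_mem_sup (Submodule.smul_mem _ _ (Submodule.mem_span_singleton_self _))
      (Submodule.smul_mem_smul (Ideal.mem_span_singleton_self ϖ) hwz)
  have hsurjM : Function.Surjective (eigenMap (M := M) he) := by
    rintro ⟨m, hm⟩
    let b := Module.Free.chooseBasis T M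
    have hi : ∀ i, ∃ o : O, b.repr m i = γ a.det * algebraMap O T o := by
      intro i
      obtain ⟨o, ho⟩ := Submodule.mem_span_singleton.1 (heigT
        (show b.repr m i ∈ eigenPart x T from (mem_eigenPart x T).2 fun t ht => by
          rw [← Finsupp.smul_apply, ← map_smul, (mem_eigenPart x M).1 hm t ht, map_zero,
            Finsupp.zero_apply]))
      exact ⟨o, by rw [← ho, Algebra.smul_def, mul_comm]⟩
    choose o ho using hi
    refine ⟨∑ i ∈ (b.repr m).support, algebraMap O T (o i) • b i, Subtype.ext ?_⟩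
    show γ a.det • _ = m
    rw [Finset.smul_sum]
    conv_rhs => rw [← b.linearCombination_repr m, Finsupp.linearCombination_apply, Finsupp.sum]
    refine Finset.sum_congr rfl fun i _ => ?_
    rw [ho i, mul_smul]
  have hk : Nat.card (((eigenPart x M).restrictScalars O) ⧸
      LinearMap.range (eigenMap (M := M) he)) = 1 := by
    rw [LinearMap.range_eq_top.2 hsurjM]
    exact Nat.card_unique
  have hmul := card_omega_mul_card (M := M) he
  rw [hk, mul_one] at hmul
  rw [hmul, card_phi_eq hγ hx ha hli hspan]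

end Fermat.Agent.Lifting
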