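import Mathlib

/-!
# Congruence module and cotangent module of a point of a finite local algebra

For `x : T →ₐ[O] O` and a `T`-module `M`: the part `eigenPart x` killed by the kernel of `x`, the
part `perpPart x` killed by an element not vanishing at `x`, the quotient
`Omega x M = M ⧸ (eigenPart x ⊔ perpPart x)` and `Phi x = ℘ / ℘²`.
-/

set_option autoImplicit false

noncomputable section

namespace Fermat.Agent.Lifting

variable {O T : Type} [CommRing O] [IsDomain O] [CommRing T] [Algebra O T]
  (x : T →ₐ[O] O) (M : Type) [AddCommGroup M] [Module T M]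

/-- The elements killed by the kernel of the point. -/
def eigenPart : Submodule T M := Submodule.torsionBySet T M (RingHom.ker x : Set T)

/-- The elements killed by an element which does not vanish at the point. -/
def perpPart : Submodule T M where
  carrier := {m | ∃ a : T, x a ≠ 0 ∧ a • m = 0}
  zero_mem' := ⟨1, by simp, smul_zero _⟩
  add_mem' := by
    rintro m m' ⟨a, ha, h⟩ ⟨b, hb, h'⟩
    refine ⟨a * b, by simp [map_mul, mul_ne_zero ha hb], ?_⟩
    rw [smul_add, mul_smul a b m', h', smul_zero, add_zero, mul_comm, mul_smul, h, smul_zero]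
  smul_mem' := by
    rintro t m ⟨a, ha, h⟩
    exact ⟨a, ha, by rw [smul_comm, h, smul_zero]⟩

omit [IsDomain O] in
theorem mem_eigenPart {m : M} : m ∈ eigenPart x M ↔ ∀ t : T, x t = 0 → t • m = 0 := by
  simp [eigenPart, Submodule.mem_torsionBySet_iff]

theorem mem_perpPart {m : M} : m ∈ perpPart x M ↔ ∃ a : T, x a ≠ 0 ∧ a • m = 0 := Iff.rfl

/-- The congruence module. -/
abbrev Omega : Type := M ⧸ (eigenPart x M ⊔ perpPart x M)

/-- The cotangent module at the point. -/
abbrev Phi : Type := (RingHom.ker x).Cotangent

/-- The rank of the eigen part. -/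
def eigenRank [Module O M] [IsScalarTower O T M] : ℕ :=
  Module.finrank O ((eigenPart x M).restrictScalars O)

end Fermat.Agent.Lifting
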