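import Fermat.Agent.Lifting.Criterion.Defs

/-!
# Orders of congruence modules

An element killed by the kernel of a point and nonzero at the point computes the congruence module.
-/

set_option autoImplicit false
set_option linter.style.haveILetI false

noncomputable section

namespace Fermat.Agent.Lifting.Criterion

open IsLocalRing

section Index

variable {R : Type*} [Ring R] {M M' : Type*} [AddCommGroup M] [AddCommGroup M'] [Module R M]
  [Module R M']

/-- The order of the quotient by the image of a submodule. -/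
theorem card_quot_map (f : M →ₗ[R] M') (S : Submodule R M) :
    Nat.card (M' ⧸ S.map f) = Nat.card (M ⧸ (S ⊔ LinearMap.ker f)) * Nat.card (M' ⧸ f.range) := by
  simp only [← Submodule.cardQuot_apply]
  show (S.map f).toAddSubgroup.index = (S ⊔ LinearMap.ker f).toAddSubgroup.index *
    f.range.toAddSubgroup.index
  rw [Submodule.map_toAddSubgroup, Submodule.sup_toAddSubgroup, AddSubgroup.index_map]
  rfl

end Index

variable {O : Type} [CommRing O] [IsDomain O] [IsDiscreteValuationRing O]

theorem finite_quot_span [Finite (ResidueField O)] {a : O} (ha : a ≠ 0) :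
    Finite (O ⧸ Ideal.span {a}) := by
  obtain ⟨ϖ, hϖ⟩ := IsDiscreteValuationRing.exists_irreducible O
  obtain ⟨n, u, rfl⟩ := IsDiscreteValuationRing.eq_unit_mul_pow_irreducible ha hϖ
  rw [Ideal.span_singleton_mul_left_unit u.isUnit, ← Ideal.span_singleton_pow,
    ← hϖ.maximalIdeal_eq]
  haveI : Finite (O ⧸ maximalIdeal O) := ‹Finite (ResidueField O)›
  exact Ideal.finite_quotient_pow (IsNoetherian.noetherian _) n

omit [IsDiscreteValuationRing O] in
theorem card_quot_span_mul {a : O} (ha : a ≠ 0) (b : O) :
    Nat.card (O ⧸ Ideal.span {a * b}) =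
      Nat.card (O ⧸ Ideal.span {a}) * Nat.card (O ⧸ Ideal.span {b}) := by
  have h := card_quot_map (LinearMap.mulLeft O a) (Ideal.span {b})
  have h1 : Submodule.map (LinearMap.mulLeft O a) (Ideal.span {b}) = Ideal.span {a * b} := by
    rw [Ideal.span, Submodule.map_span, Set.image_singleton]
    rfl
  have h2 : LinearMap.range (LinearMap.mulLeft O a) = Ideal.span {a} := by
    ext y
    simp [Ideal.mem_span_singleton', mul_comm]
  have h3 : LinearMap.ker (LinearMap.mulLeft O a) = ⊥ := by
    ext y
    simp [ha]
  rw [h1, h2, h3, sup_bot_eq] at h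
  exact h.trans (mul_comm _ _)

omit [IsDiscreteValuationRing O] in
theorem card_quot_span_prod {ι : Type*} (s : Finset ι) {a : ι → O} (ha : ∀ i ∈ s, a i ≠ 0) :
    Nat.card (O ⧸ Ideal.span {∏ i ∈ s, a i}) = ∏ i ∈ s, Nat.card (O ⧸ Ideal.span {a i}) := by
  classical
  induction s using Finset.induction_on with
  | empty =>
    simp only [Finset.prod_empty, Ideal.span_singleton_one]
    exact Nat.card_unique
  | @insert i s hi ih =>
    rw [Finset.prod_insert hi, Finset.prod_insert hi,
      card_quot_span_mul (ha i (Finset.mem_insert_self i s)),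
      ih fun j hj => ha j (Finset.mem_insert_of_mem hj)]

omit [IsDiscreteValuationRing O] in
/-- The order of `M / a M` for a free module. -/
theorem card_quot_smul {M : Type*} [AddCommGroup M] [Module O M] [Module.Finite O M]
    [Module.Free O M] (a : O) :
    Nat.card (M ⧸ LinearMap.range (a • LinearMap.id : M →ₗ[O] M)) =
      Nat.card (O ⧸ Ideal.span {a}) ^ Module.finrank O M := by
  let b := Module.finBasis O M
  let f : M →ₗ[O] Fin (Module.finrank O M) → O ⧸ Ideal.span {a} :=
    (LinearMap.pi fun i => (Ideal.span {a}).mkQ.comp (LinearMap.proj i)).comp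
      b.equivFun.toLinearMap
  have hf : Function.Surjective f := fun y => by
    choose c hc using fun i => Submodule.mkQ_surjective _ (y i)
    refine ⟨b.equivFun.symm c, funext fun i => ?_⟩
    show (Ideal.span {a}).mkQ (b.equivFun (b.equivFun.symm c) i) = y i
    rw [LinearEquiv.apply_symm_apply, hc]
  have hk : LinearMap.ker f = LinearMap.range (a • LinearMap.id : M →ₗ[O] M) := by
    ext m
    constructor
    · intro hm
      have : ∀ i, ∃ c, c * a = b.equivFun m i := fun i => Ideal.mem_span_singleton'.1
        ((Submodule.Quotient.mk_eq_zero _).1 (congrFun hm i))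
      choose c hc using this
      refine ⟨b.equivFun.symm c, b.equivFun.injective (funext fun i => ?_)⟩
      show b.equivFun (a • b.equivFun.symm c) i = b.equivFun m i
      rw [map_smul, LinearEquiv.apply_symm_apply, Pi.smul_apply, smul_eq_mul, mul_comm, hc]
    · rintro ⟨m', rfl⟩
      refine funext fun i => (Submodule.Quotient.mk_eq_zero _).2 ?_
      show b.equivFun (a • m') i ∈ _
      rw [map_smul, Ideal.mem_span_singleton']
      exact ⟨b.equivFun m' i, mul_comm _ _⟩
  rw [← hk, Nat.card_congr (f.quotKerEquivOfSurjective hf).toEquiv, Nat.card_fun, Nat.card_fin]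

variable {T : Type} [CommRing T] [Algebra O T] (x : T →ₐ[O] O)

/-- `e` is killed by the kernel of the point and does not vanish at the point. -/
structure IsEigenElt (e : T) : Prop where
  mul_eq_zero : ∀ t : T, x t = 0 → e * t = 0
  ne_zero : x e ≠ 0

omit [IsDiscreteValuationRing O] [IsDomain O] in
theorem apply_surjective : Function.Surjective x := fun o => ⟨algebraMap O T o, x.commutes o⟩

omit [IsDiscreteValuationRing O] [IsDomain O] in
theorem sub_mem_ker (t : T) : x (t - algebraMap O T (x t)) = 0 := by
  rw [map_sub, x.commutes]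
  exact sub_self _

theorem exists_isEigenElt [IsReduced T] [Module.Finite O T] : ∃ e, IsEigenElt x e := by
  classical
  haveI := IsNoetherianRing.of_finite O T
  have hpr : (RingHom.ker x).IsPrime := RingHom.ker_isPrime x
  have hcomap : (RingHom.ker x).comap (algebraMap O T) = ⊥ := by
    ext o
    rw [Ideal.mem_comap, RingHom.mem_ker, x.commutes, Ideal.mem_bot]
    rfl
  have hmin : ∀ q ∈ minimalPrimes T, q ≠ RingHom.ker x → ∃ a ∈ q, x a ≠ 0 := by
    intro q hq hne
    by_contra! h
    haveI : q.IsPrime := Ideal.minimalPrimes_isPrime hq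
    obtain ⟨a, ha, ha'⟩ := SetLike.exists_of_lt (lt_of_le_of_ne (show q ≤ RingHom.ker x from h) hne)
    have hlt := Ideal.comap_lt_comap_of_integral_mem_sdiff (hI := ‹q.IsPrime›)
      (show q ≤ RingHom.ker x from h) ⟨ha, ha'⟩ (Algebra.IsIntegral.isIntegral (R := O) a)
    rw [hcomap] at hlt
    exact not_lt_bot hlt
  choose! a ha ha' using hmin
  have hfin := minimalPrimes.finite_of_isNoetherianRing T
  refine ⟨∏ q ∈ hfin.toFinset.erase (RingHom.ker x), a q, fun t ht => ?_, ?_⟩
  · refine IsReduced.eq_zero _ ?_
    rw [← mem_nilradical, nilradical_eq_sInf, Ideal.mem_sInf]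
    intro q hq
    haveI : q.IsPrime := hq
    obtain ⟨p, hp, hpq⟩ := Ideal.exists_minimalPrimes_le (I := (⊥ : Ideal T)) (J := q) bot_le
    apply hpq
    by_cases hc : p = RingHom.ker x
    · exact Ideal.mul_mem_left _ _ (hc ▸ ht)
    · exact Ideal.mul_mem_right _ _ (p.mem_of_dvd (Finset.dvd_prod_of_mem a
        (Finset.mem_erase.2 ⟨hc, hfin.mem_toFinset.2 hp⟩)) (ha p hp hc))
  · rw [map_prod, Finset.prod_ne_zero_iff]
    intro q hq
    obtain ⟨hne, hq⟩ := Finset.mem_erase.1 hq
    exact ha' q (hfin.mem_toFinset.1 hq) hne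

omit [IsDiscreteValuationRing O] in
/-- An eigen element's value kills the cotangent module. -/
theorem IsEigenElt.smul_phi_eq_zero {x : T →ₐ[O] O} {e : T} (he : IsEigenElt x e) (p : Phi x) :
    x e • p = 0 := by
  obtain ⟨t, rfl⟩ := Ideal.toCotangent_surjective _ p
  rw [← LinearMap.map_smul_of_tower, Ideal.toCotangent_eq_zero, sq]
  have : ((x e • t : (RingHom.ker x : Ideal T)) : T) =
      -((e - algebraMap O T (x e)) * (t : T)) := by
    rw [sub_mul, he.mul_eq_zero _ (RingHom.mem_ker.1 t.2), zero_sub, neg_neg,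
      SetLike.val_smul_of_tower, Algebra.smul_def]
  rw [this]
  exact neg_mem (Ideal.mul_mem_mul (sub_mem_ker x e) t.2)

variable {M : Type} [AddCommGroup M] [Module O M] [Module T M] [IsScalarTower O T M]

omit [IsDiscreteValuationRing O] in
theorem smul_of_mem_eigenPart {m : M} (hm : m ∈ eigenPart x M) (t : T) : t • m = x t • m := by
  have h := (mem_eigenPart x M).1 hm _ (sub_mem_ker x t)
  rwa [sub_smul, sub_eq_zero, algebraMap_smul] at h

omit [IsDiscreteValuationRing O] [IsDomain O] in
theorem IsEigenElt.smul_mem [IsDomain O] {e : T} (he : IsEigenElt x e) (m : M) :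
    e • m ∈ eigenPart x M := by
  rw [mem_eigenPart]
  intro t ht
  rw [smul_smul, mul_comm, he.mul_eq_zero t ht, zero_smul]

omit [IsDiscreteValuationRing O] in
theorem IsEigenElt.mul_eq_smul {e : T} (he : IsEigenElt x e) (t : T) : e * t = x t • e := by
  have h := he.mul_eq_zero _ (sub_mem_ker x t)
  rw [mul_sub, sub_eq_zero] at h
  rw [h, Algebra.smul_def, mul_comm]

omit [IsDiscreteValuationRing O] in
theorem torsionFree_algebra [Module.Free O M] [FaithfulSMul T M] {o : O} (ho : o ≠ 0) {t : T}
    (h : o • t = 0) : t = 0 := by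
  refine eq_of_smul_eq_smul (α := M) fun m => ?_
  have : o • (t • m) = 0 := by rw [← smul_assoc, h, zero_smul]
  rw [zero_smul]
  exact (smul_eq_zero.1 this).resolve_left ho

variable [Module.Free O M] {x}

omit [IsDiscreteValuationRing O] in
theorem IsEigenElt.mem_perpPart_iff {e : T} (he : IsEigenElt x e) {m : M} :
    m ∈ perpPart x M ↔ e • m = 0 := by
  rw [mem_perpPart]
  refine ⟨?_, fun h => ⟨e, he.ne_zero, h⟩⟩
  rintro ⟨a, ha, hm⟩
  have h : x a • (e • m) = 0 := by
    rw [← smul_assoc, ← he.mul_eq_smul, mul_smul, hm, smul_zero]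
  exact (smul_eq_zero.1 h).resolve_left ha

/-- Multiplication by an eigen element, onto the eigen part. -/
def eigenMap {e : T} (he : IsEigenElt x e) : M →ₗ[O] (eigenPart x M).restrictScalars O where
  toFun m := ⟨e • m, he.smul_mem x m⟩
  map_add' m m' := Subtype.ext (smul_add e m m')
  map_smul' o m := Subtype.ext (smul_comm e o m)

omit [IsDiscreteValuationRing O] [Module.Free O M] in
@[simp] theorem coe_eigenMap {e : T} (he : IsEigenElt x e) (m : M) :
    (eigenMap he m : M) = e • m := rfl

omit [IsDiscreteValuationRing O] in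
theorem ker_eigenMap {e : T} (he : IsEigenElt x e) :
    LinearMap.ker (eigenMap (M := M) he) = (perpPart x M).restrictScalars O := by
  ext m
  rw [LinearMap.mem_ker, Submodule.restrictScalars_mem, he.mem_perpPart_iff, Subtype.ext_iff]
  rfl

omit [IsDiscreteValuationRing O] in
theorem IsEigenElt.eq_zero_of_mem {e : T} (he : IsEigenElt x e) {m : M} (h : m ∈ eigenPart x M)
    (h' : m ∈ perpPart x M) : m = 0 := by
  rw [he.mem_perpPart_iff, smul_of_mem_eigenPart x h] at h'
  exact (smul_eq_zero.1 h').resolve_left he.ne_zero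

variable [Module.Finite O M]

theorem card_quot_eigen_smul (a : O) :
    Nat.card (((eigenPart x M).restrictScalars O) ⧸
        LinearMap.range (a • LinearMap.id : ((eigenPart x M).restrictScalars O) →ₗ[O] _)) =
      Nat.card (O ⧸ Ideal.span {a}) ^ eigenRank x M :=
  card_quot_smul a

/-- The order of a quotient of the congruence module: the quotient of `M` by `b` times the eigen
part and the perpendicular part. -/
theorem card_quot_smul_eigen_sup {e : T} (he : IsEigenElt x e) (b : O) :
    Nat.card (M ⧸ (((eigenPart x M).restrictScalars O).map (b • LinearMap.id) ⊔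
        (perpPart x M).restrictScalars O)) *
      Nat.card (((eigenPart x M).restrictScalars O) ⧸ LinearMap.range (eigenMap (M := M) he)) =
      Nat.card (O ⧸ Ideal.span {x e * b}) ^ eigenRank x M := by
  rw [← card_quot_eigen_smul, ← ker_eigenMap he, ← card_quot_map]
  congr 2
  · congr 1
    ext p
    constructor
    · rintro ⟨_, ⟨q, hq, rfl⟩, rfl⟩
      refine ⟨⟨q, hq⟩, Subtype.ext ?_⟩
      show (x e * b) • q = e • (b • q)
      rw [smul_comm e b q, smul_of_mem_eigenPart x hq, smul_smul, mul_comm]
    · rintro ⟨q, rfl⟩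
      refine ⟨b • (q : M), ⟨q, q.2, rfl⟩, Subtype.ext ?_⟩
      show e • (b • (q : M)) = (x e * b) • (q : M)
      rw [smul_comm e b (q : M), smul_of_mem_eigenPart x q.2, smul_smul, mul_comm]

theorem card_omega_mul_card {e : T} (he : IsEigenElt x e) :
    Nat.card (Omega x M) *
      Nat.card (((eigenPart x M).restrictScalars O) ⧸ LinearMap.range (eigenMap (M := M) he)) =
      Nat.card (O ⧸ Ideal.span {x e}) ^ eigenRank x M := by
  have h := card_quot_smul_eigen_sup (M := M) he 1
  rw [mul_one, one_smul, Submodule.map_id] at h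
  rw [← h]
  congr 1
  rw [← Submodule.cardQuot_apply, ← Submodule.cardQuot_apply]
  show AddSubgroup.index _ = AddSubgroup.index _
  rw [Submodule.sup_toAddSubgroup, Submodule.sup_toAddSubgroup]
  rfl

variable [Finite (ResidueField O)]

theorem card_quot_span_pow_ne_zero {a : O} (ha : a ≠ 0) (d : ℕ) :
    Nat.card (O ⧸ Ideal.span {a}) ^ d ≠ 0 :=
  pow_ne_zero _ (@Nat.card_pos _ _ (finite_quot_span ha)).ne'

theorem finite_omega_of_isEigenElt {e : T} (he : IsEigenElt x e) : Finite (Omega x M) :=
  Nat.finite_of_card_ne_zero fun h => card_quot_span_pow_ne_zero he.ne_zero (eigenRank x M)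
    (by rw [← card_omega_mul_card (M := M) he, h, zero_mul])

theorem card_omega_le_of_isEigenElt {e : T} (he : IsEigenElt x e) :
    Nat.card (Omega x M) ≤ Nat.card (O ⧸ Ideal.span {x e}) ^ eigenRank x M :=
  Nat.le_of_dvd (Nat.pos_of_ne_zero (card_quot_span_pow_ne_zero he.ne_zero _))
    ⟨_, (card_omega_mul_card he).symm⟩

theorem card_phi_ne_zero [Module.Finite O T] {e : T} (he : IsEigenElt x e) :
    Nat.card (Phi x) ≠ 0 := by
  haveI := IsNoetherianRing.of_finite O T
  haveI : Module.Finite O (RingHom.ker x : Ideal T) :=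
    Module.Finite.of_injective (((RingHom.ker x : Ideal T).subtype).restrictScalars O)
      Subtype.val_injective
  haveI : Module.Finite O (Phi x) :=
    Module.Finite.of_surjective ((Ideal.toCotangent _).restrictScalars O)
      (Ideal.toCotangent_surjective _)
  obtain ⟨n, f, hf⟩ := Module.Finite.exists_fin' O (Phi x)
  haveI := finite_quot_span he.ne_zero
  have hkill : ∀ v, f (x e • v) = 0 := fun v => by
    rw [map_smul, he.smul_phi_eq_zero]
  have hk : LinearMap.range (x e • LinearMap.id : (Fin n → O) →ₗ[O] (Fin n → O)) ≤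
      LinearMap.ker f := by
    rintro _ ⟨v, rfl⟩
    exact hkill v
  haveI : Finite ((Fin n → O) ⧸ LinearMap.range (x e • LinearMap.id : (Fin n → O) →ₗ[O] _)) :=
    Nat.finite_of_card_ne_zero (by
      rw [card_quot_smul]
      exact card_quot_span_pow_ne_zero he.ne_zero _)
  haveI : Finite (Phi x) := Finite.of_surjective
    (Submodule.liftQ _ f hk) fun y => by
      obtain ⟨v, rfl⟩ := hf y
      exact ⟨Submodule.Quotient.mk v, rfl⟩
  exact Nat.card_pos.ne'

omit [Finite (ResidueField O)] in
theorem eigenRank_pos_of_isEigenElt [FaithfulSMul T M] {e : T}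
    (he : IsEigenElt x e) : 0 < eigenRank x M := by
  have he0 : e ≠ 0 := fun h => he.ne_zero (by rw [h, map_zero])
  obtain ⟨m, hm⟩ : ∃ m : M, e • m ≠ 0 := by
    by_contra! h
    exact he0 (eq_of_smul_eq_smul (α := M) fun m => by rw [h m, zero_smul])
  haveI : Nontrivial ((eigenPart x M).restrictScalars O) :=
    nontrivial_of_ne (eigenMap he m) 0 fun h => hm (congrArg Subtype.val h)
  exact Module.finrank_pos

end Fermat.Agent.Lifting.Criterion
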