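import Mathlib

/-!
# The socle of a regular sequence in a local ring with regular parameters

If the maximal ideal is generated by a regular sequence `x` and `f = a x` is a regular sequence of
the same length, `det a` generates the socle of `A ⧸ (f)`; shorter regular sequences have trivial
socle.
-/

set_option autoImplicit false
set_option linter.style.haveILetI false

noncomputable section

namespace Fermat.Agent.Lifting.Criterion

open IsLocalRing RingTheory.Sequence
open scoped Matrix

variable {A : Type*} [CommRing A]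

/-- The ideal of the members of a family other than the `i`-th one. -/
def othIdeal {n : ℕ} (f : Fin (n + 1) → A) (i : Fin (n + 1)) : Ideal A :=
  Ideal.span (Set.range (f ∘ i.succAbove))

theorem othIdeal_update {n : ℕ} (f : Fin (n + 1) → A) (i : Fin (n + 1)) (y : A) :
    othIdeal (Function.update f i y) i = othIdeal f i := by
  have h : Function.update f i y ∘ i.succAbove = f ∘ i.succAbove :=
    funext fun j => Function.update_of_ne (i.succAbove_ne j) _ _
  rw [othIdeal, othIdeal, h]

theorem span_range_eq_sup {n : ℕ} (f : Fin (n + 1) → A) (i : Fin (n + 1)) :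
    Ideal.span (Set.range f) = othIdeal f i ⊔ Ideal.span {f i} := by
  rw [othIdeal, ← Ideal.span_union, Set.range_comp, Fin.range_succAbove, ← Set.image_singleton,
    ← Set.image_union, Set.compl_union_self, Set.image_univ]

theorem ofList_ofFn {n : ℕ} (f : Fin n → A) :
    Ideal.ofList (List.ofFn f) = Ideal.span (Set.range f) := by
  simp [Ideal.ofList, Set.range, List.mem_ofFn]

theorem perm_ofFn_succAbove {n : ℕ} (f : Fin (n + 1) → A) (i : Fin (n + 1)) :
    (List.ofFn f).Perm (List.ofFn (f ∘ i.succAbove) ++ [f i]) := by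
  refine List.Perm.trans ?_ (List.perm_append_singleton _ _).symm
  rw [← Multiset.coe_eq_coe, ← Multiset.cons_coe, ← Fin.univ_val_map f, ← Fin.univ_val_map,
    Fin.univ_succAbove n i, Finset.cons_val, Multiset.map_cons, Finset.map_val, Multiset.map_map]
  rfl

/-- `b` is a non zero divisor modulo `I`. -/
def NZDMod (I : Ideal A) (b : A) : Prop := ∀ z, b * z ∈ I → z ∈ I

theorem isSMulRegular_ofList_iff (rs : List A) (b : A) :
    IsSMulRegular (A ⧸ (Ideal.ofList rs • ⊤ : Submodule A A)) b ↔ NZDMod (Ideal.ofList rs) b := by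
  rw [isSMulRegular_quotient_iff_mem_of_smul_mem, smul_eq_mul, Ideal.mul_top]
  rfl

/-- The exchange of the last member of a regular sequence acts on the socle. -/
theorem exists_socle_exchange [IsLocalRing A] {I : Ideal A} {b c z : A} (hb : NZDMod I b)
    (hc : c ∈ maximalIdeal A) (hz : ∀ y ∈ maximalIdeal A, y * z ∈ I ⊔ Ideal.span {b}) :
    ∃ z', c * z - b * z' ∈ I ∧ ∀ y ∈ maximalIdeal A, y * z' ∈ I ⊔ Ideal.span {c} := by
  obtain ⟨i, hi, _, hw, heq⟩ := Submodule.mem_sup.1 (hz c hc)
  obtain ⟨z', rfl⟩ := Ideal.mem_span_singleton'.1 hw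
  refine ⟨z', ?_, fun y hy => ?_⟩
  · rwa [← heq, mul_comm z' b, add_sub_cancel_right]
  · obtain ⟨i', hi', _, hw', heq'⟩ := Submodule.mem_sup.1 (hz y hy)
    obtain ⟨w, rfl⟩ := Ideal.mem_span_singleton'.1 hw'
    have h : b * (y * z' - c * w) ∈ I := by
      have : b * (y * z' - c * w) = c * i' - y * i := by linear_combination y * heq - c * heq'
      rw [this]
      exact sub_mem (I.mul_mem_left _ hi') (I.mul_mem_left _ hi)
    exact Submodule.mem_sup.2 ⟨_, hb _ h, c * w, Ideal.mem_span_singleton'.2 ⟨w, mul_comm _ _⟩,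
      sub_add_cancel _ _⟩

section Local

variable [IsLocalRing A] [IsNoetherianRing A]

theorem nzdMod_of_isRegular {n : ℕ} {f : Fin (n + 1) → A} (hf : IsRegular A (List.ofFn f))
    (i : Fin (n + 1)) : NZDMod (othIdeal f i) (f i) := by
  have h := (IsLocalRing.isRegular_of_perm hf (perm_ofFn_succAbove f i)).toIsWeaklyRegular
  rw [isWeaklyRegular_append_iff, isWeaklyRegular_singleton_iff, isSMulRegular_ofList_iff,
    ofList_ofFn] at h
  exact h.2

omit [IsNoetherianRing A] in
theorem mem_maximalIdeal_of_isRegular {n : ℕ} {f : Fin n → A} (hf : IsRegular A (List.ofFn f))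
    (i : Fin n) : f i ∈ maximalIdeal A := by
  by_contra h
  have htop : Ideal.span (Set.range f) = ⊤ :=
    Ideal.eq_top_of_isUnit_mem _ (Ideal.subset_span ⟨i, rfl⟩) (of_not_not h)
  apply hf.2
  rw [smul_eq_mul, Ideal.mul_top, ofList_ofFn, htop]

/-- Appending a non zero divisor of the maximal ideal keeps a sequence regular. -/
theorem isRegular_append {rs : List A} (h : IsWeaklyRegular A rs)
    (hrs : ∀ r ∈ rs, r ∈ maximalIdeal A) {y : A} (hy : y ∈ maximalIdeal A)
    (hy' : NZDMod (Ideal.ofList rs) y) : IsRegular A (rs ++ [y]) := by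
  refine IsRegular.of_isWeaklyRegular_of_mem_maximalIdeal A ?_ ?_
  · intro r hr
    rcases List.mem_append.1 hr with hr | hr
    · exact hrs r hr
    · rw [List.mem_singleton.1 hr]
      exact hy
  · rw [isWeaklyRegular_append_iff, isWeaklyRegular_singleton_iff, isSMulRegular_ofList_iff]
    exact ⟨h, hy'⟩

theorem isRegular_update {n : ℕ} {f : Fin (n + 1) → A} (hf : IsRegular A (List.ofFn f))
    {i : Fin (n + 1)} {y : A} (hy : y ∈ maximalIdeal A) (hy' : NZDMod (othIdeal f i) y) :
    IsRegular A (List.ofFn (Function.update f i y)) := by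
  have h := (IsLocalRing.isRegular_of_perm hf (perm_ofFn_succAbove f i)).toIsWeaklyRegular
  rw [isWeaklyRegular_append_iff] at h
  have h' : IsRegular A (List.ofFn (f ∘ i.succAbove) ++ [y]) := by
    refine isRegular_append h.1 ?_ hy (by rwa [ofList_ofFn])
    intro r hr
    obtain ⟨j, rfl⟩ := List.mem_ofFn.1 hr
    exact mem_maximalIdeal_of_isRegular hf _
  have he : Function.update f i y ∘ i.succAbove = f ∘ i.succAbove :=
    funext fun j => Function.update_of_ne (i.succAbove_ne j) _ _
  refine IsLocalRing.isRegular_of_perm h' ?_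
  have hp := (perm_ofFn_succAbove (Function.update f i y) i).symm
  rwa [Function.update_self, he] at hp

omit [IsLocalRing A] in
/-- An element outside all associated primes is a non zero divisor. -/
theorem nzdMod_of_forall_notMem {I : Ideal A} {y : A}
    (h : ∀ q ∈ associatedPrimes A (A ⧸ I), y ∉ q) : NZDMod I y := by
  intro z hz
  by_contra hzI
  obtain ⟨q, hq, hle⟩ := exists_le_isAssociatedPrime_of_isNoetherianRing A
    (Ideal.Quotient.mk I z) (fun h0 => hzI (Ideal.Quotient.eq_zero_iff_mem.1 h0))
  refine h q hq (hle ?_)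
  rw [Submodule.mem_colon_singleton, Submodule.mem_bot]
  exact Ideal.Quotient.eq_zero_iff_mem.2 hz

omit [IsLocalRing A] in
/-- An associated prime of `A ⧸ I` kills an element outside `I`. -/
theorem exists_of_mem_associatedPrimes {I q : Ideal A} (hq : q ∈ associatedPrimes A (A ⧸ I)) :
    ∃ z ∉ I, ∀ y ∈ q, y * z ∈ I := by
  obtain ⟨hp, z, rfl⟩ := isAssociatedPrime_iff.1 hq
  obtain ⟨z, rfl⟩ := Ideal.Quotient.mk_surjective z
  refine ⟨z, fun hz => hp.ne_top ?_, fun y hy => ?_⟩
  · rw [eq_top_iff]
    intro y _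
    rw [Submodule.mem_colon_singleton, Submodule.mem_bot, Ideal.Quotient.eq_zero_iff_mem.2 hz,
      smul_zero]
  · rw [Submodule.mem_colon_singleton, Submodule.mem_bot] at hy
    exact Ideal.Quotient.eq_zero_iff_mem.1 hy

omit [IsLocalRing A] [IsNoetherianRing A] in
/-- A coset of an ideal avoids finitely many primes none of which contains the ideal. -/
theorem exists_add_notMem (S : Finset (Ideal A)) (hS : ∀ q ∈ S, q.IsPrime) {I : Ideal A}
    (hI : ∀ q ∈ S, ¬ I ≤ q) (c : A) : ∃ g ∈ I, ∀ q ∈ S, c + g ∉ q := by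
  classical
  induction S using Finset.strongInduction with
  | H S ih =>
    rcases S.eq_empty_or_nonempty with rfl | hne
    · exact ⟨0, I.zero_mem, by simp⟩
    · obtain ⟨p, hp, hmin⟩ := S.exists_minimal hne
      obtain ⟨g, hg, hg'⟩ := ih (S.erase p) (Finset.erase_ssubset hp)
        (fun q hq => hS q (Finset.mem_of_mem_erase hq))
        (fun q hq => hI q (Finset.mem_of_mem_erase hq))
      by_cases hc : c + g ∈ p
      · have : p.IsPrime := hS p hp
        have hall : ∀ q ∈ insert I (S.erase p), ¬ q ≤ p := by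
          intro q hq hle
          rcases Finset.mem_insert.1 hq with rfl | hq
          · exact hI p hp hle
          · obtain ⟨hne', hqS⟩ := Finset.mem_erase.1 hq
            exact hne' (le_antisymm hle (hmin hqS hle))
        choose! t ht ht' using fun q hq => SetLike.not_le_iff_exists.1 (hall q hq)
        set u := ∏ q ∈ insert I (S.erase p), t q
        have hu : ∀ q ∈ insert I (S.erase p), u ∈ q := fun q hq =>
          q.mem_of_dvd (Finset.dvd_prod_of_mem t hq) (ht q hq)
        refine ⟨g + u, add_mem hg (hu I (Finset.mem_insert_self _ _)), fun q hq hqc => ?_⟩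
        rw [← add_assoc] at hqc
        by_cases hqp : q = p
        · subst hqp
          have : u ∈ q := by simpa using sub_mem hqc hc
          rw [Ideal.IsPrime.prod_mem_iff] at this
          obtain ⟨r, hr, hr'⟩ := this
          exact ht' r hr hr'
        · have hq' := Finset.mem_erase.2 ⟨hqp, hq⟩
          exact hg' q hq' (by simpa using sub_mem hqc (hu q (Finset.mem_insert_of_mem hq')))
      · refine ⟨g, hg, fun q hq => ?_⟩
        by_cases hqp : q = p
        · exact hqp ▸ hc
        · exact hg' q (Finset.mem_erase.2 ⟨hqp, hq⟩)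

theorem ne_maximalIdeal_of_nzdMod {I q : Ideal A} {y : A} (hy : y ∈ maximalIdeal A)
    (h : NZDMod I y) (hq : q ∈ associatedPrimes A (A ⧸ I)) : q ≠ maximalIdeal A := by
  rintro rfl
  obtain ⟨z, hz, hz'⟩ := exists_of_mem_associatedPrimes hq
  exact hz (h z (hz' y hy))

theorem exists_nzdMod_pair {I J : Ideal A} {b c : A} (hb : b ∈ maximalIdeal A) (hb' : NZDMod I b)
    (hc : c ∈ maximalIdeal A) (hc' : NZDMod J c) :
    ∃ y ∈ maximalIdeal A, NZDMod I y ∧ NZDMod J y := by
  classical
  let S := (associatedPrimes.finite A (A ⧸ I)).toFinset ∪ (associatedPrimes.finite A (A ⧸ J)).toFinset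
  have hS : ∀ q ∈ S, q.IsPrime ∧ q ≠ maximalIdeal A := by
    intro q hq
    rcases Finset.mem_union.1 hq with h | h <;> rw [Set.Finite.mem_toFinset] at h
    · exact ⟨h.1, ne_maximalIdeal_of_nzdMod hb hb' h⟩
    · exact ⟨h.1, ne_maximalIdeal_of_nzdMod hc hc' h⟩
  obtain ⟨y, hy, hy'⟩ := exists_add_notMem S (fun q hq => (hS q hq).1) (I := maximalIdeal A)
    (fun q hq hle => (hS q hq).2
      ((maximalIdeal.isMaximal A).eq_of_le (hS q hq).1.ne_top hle).symm) 0
  simp only [zero_add] at hy'
  exact ⟨y, hy, nzdMod_of_forall_notMem fun q hq => hy' q (Finset.mem_union_left _ (by simpa)),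
    nzdMod_of_forall_notMem fun q hq => hy' q (Finset.mem_union_right _ (by simpa))⟩

/-- A property stable under the exchange of one member passes between regular sequences. -/
theorem of_exchange {n : ℕ} (P : (Fin (n + 1) → A) → Prop)
    (hex : ∀ f i y, IsRegular A (List.ofFn f) → IsRegular A (List.ofFn (Function.update f i y)) →
      P f → P (Function.update f i y))
    {f g : Fin (n + 1) → A} (hf : IsRegular A (List.ofFn f)) (hg : IsRegular A (List.ofFn g))
    (h : P g) : P f := by
  suffices H : ∀ k : ℕ, ∀ f g : Fin (n + 1) → A, IsRegular A (List.ofFn f) →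
      IsRegular A (List.ofFn g) → (∀ i : Fin (n + 1), (i : ℕ) + k < n + 1 → f i = g i) →
      P g → P f from
    H (n + 1) f g hf hg (fun i hi => absurd hi (by omega)) h
  intro k
  induction k with
  | zero =>
    intro f g _ _ hag h
    rwa [show f = g from funext fun i => hag i (by omega)]
  | succ k ih =>
    intro f g hf hg hag h
    by_cases hk : k < n + 1
    · let j : Fin (n + 1) := ⟨n - k, by omega⟩
      obtain ⟨y, hy, hyf, hyg⟩ := exists_nzdMod_pair (mem_maximalIdeal_of_isRegular hf j)
        (nzdMod_of_isRegular hf j) (mem_maximalIdeal_of_isRegular hg j) (nzdMod_of_isRegular hg j)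
      have hf' := isRegular_update hf hy hyf
      have hg' := isRegular_update hg hy hyg
      have h' := hex g j y hg hg' h
      have h'' := ih _ _ hf' hg' (fun i hi => ?_) h'
      · have := hex (Function.update f j y) j (f j) hf' (by simpa using hf) h''
        simpa using this
      · by_cases hij : i = j
        · subst hij
          simp
        · rw [Function.update_of_ne hij, Function.update_of_ne hij]
          refine hag i ?_
          have : (i : ℕ) ≠ n - k := fun h => hij (Fin.ext h)
          omega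
    · exact ih f g hf hg (fun i hi => absurd hi (by omega)) h

/-- A regular sequence shorter than a regular system of parameters has trivial socle. -/
theorem socle_eq_of_short {n l : ℕ} (hl : l + 1 < n) {x : Fin n → A}
    (hx : IsRegular A (List.ofFn x)) {f : Fin (l + 1) → A} (hf : IsRegular A (List.ofFn f))
    {z : A} (hz : ∀ y ∈ maximalIdeal A, y * z ∈ Ideal.span (Set.range f)) :
    z ∈ Ideal.span (Set.range f) := by
  revert z
  let P : (Fin (l + 1) → A) → Prop := fun f => ∀ z,
    (∀ y ∈ maximalIdeal A, y * z ∈ Ideal.span (Set.range f)) → z ∈ Ideal.span (Set.range f)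
  suffices H : P f from @H
  let g : Fin (l + 1) → A := fun i => x (Fin.castLE hl.le i)
  have hsplit : List.ofFn x = List.ofFn g ++ x ⟨l + 1, hl⟩ :: (List.ofFn x).drop (l + 2) := by
    refine (List.take_append_drop (l + 1) (List.ofFn x)).symm.trans ?_
    rw [List.drop_eq_getElem_cons (i := l + 1) (by simpa using hl), List.getElem_ofFn]
    congr 1
    refine List.ext_getElem (by simp; omega) fun i h1 h2 => ?_
    simp only [List.getElem_take, List.getElem_ofFn, g]
    rfl
  have hw := hx.toIsWeaklyRegular
  rw [hsplit, isWeaklyRegular_append_iff, isWeaklyRegular_cons_iff, isSMulRegular_ofList_iff,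
    ofList_ofFn] at hw
  have hg : IsRegular A (List.ofFn g) := IsRegular.of_isWeaklyRegular_of_mem_maximalIdeal A
    (fun r hr => by
      obtain ⟨i, rfl⟩ := List.mem_ofFn.1 hr
      exact mem_maximalIdeal_of_isRegular hx _) hw.1
  refine of_exchange P ?_ hf hg fun z hz =>
    hw.2.1 z (hz _ (mem_maximalIdeal_of_isRegular hx _))
  intro f i c hf hf' h z hz
  have hb := nzdMod_of_isRegular hf i
  have hc := nzdMod_of_isRegular hf' i
  rw [Function.update_self, othIdeal_update] at hc
  rw [span_range_eq_sup _ i, othIdeal_update, Function.update_self] at hz ⊢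
  obtain ⟨z', h1, h2⟩ := exists_socle_exchange hc (mem_maximalIdeal_of_isRegular hf i) hz
  obtain ⟨u, hu, _, hw', hz'⟩ := Submodule.mem_sup.1
    (span_range_eq_sup f i ▸ h z' (by rwa [span_range_eq_sup f i]))
  obtain ⟨t, rfl⟩ := Ideal.mem_span_singleton'.1 hw'
  have h3 : f i * (z - c * t) ∈ othIdeal f i := by
    have : f i * (z - c * t) = (f i * z - c * z') + c * u := by linear_combination -c * hz'
    rw [this]
    exact add_mem h1 (Ideal.mul_mem_left _ _ hu)
  exact Submodule.mem_sup.2 ⟨_, hb _ h3, c * t, Ideal.mem_span_singleton'.2 ⟨t, mul_comm _ _⟩,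
    sub_add_cancel _ _⟩

/-- The socle property of a full regular sequence. -/
def SocleDet {n : ℕ} (x f : Fin n → A) : Prop :=
  ∀ a : Matrix (Fin n) (Fin n) A, f = a *ᵥ x →
    a.det ∉ Ideal.span (Set.range f) ∧
    ∀ z, (∀ y ∈ maximalIdeal A, y * z ∈ Ideal.span (Set.range f)) →
      ∃ u, z - u * a.det ∈ Ideal.span (Set.range f)

omit [IsLocalRing A] [IsNoetherianRing A] in
theorem det_exchange {n : ℕ} (a a' : Matrix (Fin (n + 1)) (Fin (n + 1)) A) (i : Fin (n + 1))
    (hrow : ∀ k, k ≠ i → a k = a' k) (x : Fin (n + 1) → A) :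
    (a' *ᵥ x) i * a.det - (a *ᵥ x) i * a'.det ∈ othIdeal (a *ᵥ x) i := by
  set I := othIdeal (a *ᵥ x) i
  have hadj : ∀ j, a.adjugate j i = a'.adjugate j i := by
    intro j
    rw [Matrix.adjugate_apply, Matrix.adjugate_apply]
    congr 1
    ext k l
    by_cases hk : k = i
    · subst hk
      simp
    · rw [Matrix.updateRow_ne hk, Matrix.updateRow_ne hk, hrow k hk]
  have hmem : ∀ j, a.det * x j - a.adjugate j i * (a *ᵥ x) i ∈ I := by
    intro j
    have h : a.det * x j = ∑ k, a.adjugate j k * (a *ᵥ x) k := by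
      have := congrFun (Matrix.mulVec_mulVec x a.adjugate a) j
      rw [Matrix.adjugate_mul] at this
      simp only [Matrix.mulVec, dotProduct, Matrix.smul_apply, Matrix.one_apply, smul_eq_mul,
        mul_ite, mul_one, mul_zero, ite_mul, zero_mul, Finset.sum_ite_eq, Finset.mem_univ,
        if_true] at this ⊢
      exact this.symm
    rw [h, Fin.sum_univ_succAbove _ i, add_sub_cancel_left]
    exact Submodule.sum_mem _ fun k _ => Ideal.mul_mem_left _ _ (Ideal.subset_span ⟨k, rfl⟩)
  have hdet : a'.det = ∑ j, a' i j * a.adjugate j i := by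
    have := congrFun (congrFun (Matrix.mul_adjugate a') i) i
    simp only [Matrix.mul_apply, Matrix.smul_apply, Matrix.one_apply_eq, smul_eq_mul,
      mul_one] at this
    rw [← this]
    simp [hadj]
  have : (a' *ᵥ x) i * a.det - (a *ᵥ x) i * a'.det =
      ∑ j, a' i j * (a.det * x j - a.adjugate j i * (a *ᵥ x) i) := by
    rw [hdet, Finset.mul_sum]
    generalize (a *ᵥ x) i = B
    rw [show (a' *ᵥ x) i = ∑ j, a' i j * x j from rfl, Finset.sum_mul, ← Finset.sum_sub_distrib]
    refine Finset.sum_congr rfl fun j _ => ?_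
    ring
  rw [this]
  exact Submodule.sum_mem _ fun j _ => Ideal.mul_mem_left _ _ (hmem j)

/-- **The socle lemma.** -/
theorem socleDet {n : ℕ} {x f : Fin (n + 1) → A} (hx : IsRegular A (List.ofFn x))
    (hxm : Ideal.span (Set.range x) = maximalIdeal A)
    (hmin : ∀ c : Fin (n + 1) → A, ∑ j, c j * x j = 0 → ∀ j, c j ∈ maximalIdeal A)
    (hf : IsRegular A (List.ofFn f)) : SocleDet x f := by
  refine of_exchange (SocleDet x) ?_ hf hx ?_
  · intro f i c hf hf' h a' ha'
    have hcm : c ∈ maximalIdeal A := by simpa using mem_maximalIdeal_of_isRegular hf' i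
    have hb := nzdMod_of_isRegular hf i
    have hc := nzdMod_of_isRegular hf' i
    rw [Function.update_self, othIdeal_update] at hc
    obtain ⟨α, hα⟩ := Ideal.mem_span_range_iff_exists_fun.1
      (hxm ▸ mem_maximalIdeal_of_isRegular hf i)
    let a := a'.updateRow i α
    have hfa : f = a *ᵥ x := by
      funext k
      by_cases hk : k = i
      · subst hk
        simp [a, Matrix.mulVec, dotProduct, hα]
      · have := congrFun ha' k
        rw [Function.update_of_ne hk] at this
        simpa [a, Matrix.mulVec, dotProduct, Matrix.updateRow_ne hk] using this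
    obtain ⟨hdet, hsoc⟩ := h a hfa
    have hex : c * a.det - f i * a'.det ∈ othIdeal f i := by
      have := det_exchange a a' i (fun k hk => Matrix.updateRow_ne hk) x
      rw [← hfa, ← ha', Function.update_self] at this
      exact this
    rw [span_range_eq_sup _ i, othIdeal_update, Function.update_self]
    refine ⟨fun hmem => hdet ?_, fun z hz => ?_⟩
    · obtain ⟨u, hu, _, hw, hsum⟩ := Submodule.mem_sup.1 hmem
      obtain ⟨t, rfl⟩ := Ideal.mem_span_singleton'.1 hw
      rw [span_range_eq_sup f i]
      have h3 : c * (a.det - f i * t) ∈ othIdeal f i := by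
        have : c * (a.det - f i * t) = (c * a.det - f i * a'.det) + f i * u := by
          linear_combination -f i * hsum
        rw [this]
        exact add_mem hex (Ideal.mul_mem_left _ _ hu)
      exact Submodule.mem_sup.2 ⟨_, hc _ h3, f i * t,
        Ideal.mem_span_singleton'.2 ⟨t, mul_comm _ _⟩, sub_add_cancel _ _⟩
    · obtain ⟨z', h1, h2⟩ := exists_socle_exchange hc (mem_maximalIdeal_of_isRegular hf i) hz
      obtain ⟨u, hu⟩ := hsoc z' (by rwa [span_range_eq_sup f i])
      rw [span_range_eq_sup f i] at hu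
      obtain ⟨v, hv, _, hw, hsum⟩ := Submodule.mem_sup.1 hu
      obtain ⟨t, rfl⟩ := Ideal.mem_span_singleton'.1 hw
      refine ⟨u, ?_⟩
      have h3 : f i * (z - u * a'.det - c * t) ∈ othIdeal f i := by
        have : f i * (z - u * a'.det - c * t) =
            (f i * z - c * z') + u * (c * a.det - f i * a'.det) + c * v := by
          linear_combination -c * hsum
        rw [this]
        exact add_mem (add_mem h1 (Ideal.mul_mem_left _ _ hex)) (Ideal.mul_mem_left _ _ hv)
      exact Submodule.mem_sup.2 ⟨_, hb _ h3, c * t, Ideal.mem_span_singleton'.2 ⟨t, mul_comm _ _⟩,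
        sub_add_cancel _ _⟩
  · intro a ha
    have hent : a.map (residue A) = 1 := by
      ext i j
      have h0 : ∑ k, (a i k - (1 : Matrix (Fin (n + 1)) (Fin (n + 1)) A) i k) * x k = 0 := by
        have h' : ∑ k, a i k * x k = x i := (congrFun ha i).symm
        simp [sub_mul, Finset.sum_sub_distrib, h', Matrix.one_apply, ite_mul]
      have h1 := (residue_eq_zero_iff _).2 (hmin _ h0 j)
      rw [map_sub, sub_eq_zero] at h1
      rw [Matrix.map_apply, h1, Matrix.one_apply, Matrix.one_apply]
      split_ifs <;> simp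
    have hu : IsUnit a.det := by
      by_contra h
      have h1 := (residue_eq_zero_iff a.det).2 h
      rw [RingHom.map_det, RingHom.mapMatrix_apply, hent, Matrix.det_one] at h1
      exact one_ne_zero h1
    obtain ⟨w, hw⟩ := hu
    rw [hxm]
    refine ⟨fun h => h (hw ▸ w.isUnit), fun z _ => ⟨z * ↑w⁻¹, ?_⟩⟩
    simp [← hw]

theorem exists_pow_le_span {n : ℕ} {x f : Fin (n + 1) → A} (hx : IsRegular A (List.ofFn x))
    (hxm : Ideal.span (Set.range x) = maximalIdeal A) (hf : IsRegular A (List.ofFn f)) :
    ∃ N : ℕ, maximalIdeal A ^ N ≤ Ideal.span (Set.range f) := by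
  have h1 := ringKrullDim_add_length_eq_ringKrullDim_of_isRegular _ hx
  have h2 := ringKrullDim_add_length_eq_ringKrullDim_of_isRegular _ hf
  rw [List.length_ofFn, ofList_ofFn] at h1 h2
  rw [hxm] at h1
  rw [ringKrullDim_eq_zero_of_isField
    ((Ideal.Quotient.maximal_ideal_iff_isField_quotient _).1 (maximalIdeal.isMaximal A)),
    zero_add] at h1
  rw [← h1] at h2
  have h0 : ringKrullDim (A ⧸ Ideal.span (Set.range f)) ≤ 0 :=
    (ENat.WithBot.add_natCast_cancel.1 (h2.trans (zero_add _).symm)).le
  haveI : Ring.KrullDimLE 0 (A ⧸ Ideal.span (Set.range f)) := Ring.krullDimLE_iff.2 h0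
  refine Ideal.exists_pow_le_of_le_radical_of_fg ?_ (IsNoetherian.noetherian _)
  rw [Ideal.radical_eq_sInf]
  refine le_sInf fun P ⟨hle, hP⟩ => ?_
  haveI := hP
  obtain ⟨p, hp, hpP⟩ := Ideal.exists_minimalPrimes_le hle
  have := Ideal.krullDimLE_zero_quotient_iff_forall_minimalPrimes_isMaximal.1 inferInstance p hp
  exact (IsLocalRing.eq_maximalIdeal this ▸ hpP : maximalIdeal A ≤ P)

/-- Every element outside a full regular sequence has the determinant among its multiples. -/
theorem exists_mul_sub_det_mem {n : ℕ} {x f : Fin (n + 1) → A} (hx : IsRegular A (List.ofFn x))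
    (hxm : Ideal.span (Set.range x) = maximalIdeal A)
    (hmin : ∀ c : Fin (n + 1) → A, ∑ j, c j * x j = 0 → ∀ j, c j ∈ maximalIdeal A)
    (hf : IsRegular A (List.ofFn f)) {a : Matrix (Fin (n + 1)) (Fin (n + 1)) A}
    (ha : f = a *ᵥ x) {z : A} (hz : z ∉ Ideal.span (Set.range f)) :
    ∃ t, t * z - a.det ∈ Ideal.span (Set.range f) := by
  classical
  obtain ⟨-, hsoc⟩ := socleDet hx hxm hmin hf a ha
  set J := Ideal.span (Set.range f)
  have hex : ∃ k, ∀ y ∈ maximalIdeal A ^ k, y * z ∈ J := by
    obtain ⟨N, hN⟩ := exists_pow_le_span hx hxm hf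
    exact ⟨N, fun y hy => J.mul_mem_right _ (hN hy)⟩
  have h0 : Nat.find hex ≠ 0 := fun h => hz (by
    have := Nat.find_spec hex
    rw [h, pow_zero, Ideal.one_eq_top] at this
    simpa using this 1 Submodule.mem_top)
  obtain ⟨k, hk⟩ := Nat.exists_eq_succ_of_ne_zero h0
  obtain ⟨y, hy, hyz⟩ : ∃ y ∈ maximalIdeal A ^ k, y * z ∉ J := by
    have := Nat.find_min hex (m := k) (by omega)
    push Not at this
    exact this
  obtain ⟨u, hu⟩ := hsoc (y * z) fun w hw => by
    rw [← mul_assoc]
    refine (hk ▸ Nat.find_spec hex) _ ?_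
    rw [pow_succ']
    exact Ideal.mul_mem_mul hw hy
  have huU : IsUnit u := by
    by_contra hnu
    refine hyz ?_
    have h1 : a.det * u ∈ J := by
      have h2 : ∀ w ∈ maximalIdeal A, w * a.det ∈ J := by
        intro w hw
        rw [← hxm, Ideal.mem_span_range_iff_exists_fun] at hw
        obtain ⟨c, rfl⟩ := hw
        rw [Finset.sum_mul]
        refine Submodule.sum_mem _ fun j _ => ?_
        rw [mul_assoc, mul_comm (x j)]
        refine Ideal.mul_mem_left _ _ ?_
        have := congrFun (Matrix.mulVec_mulVec x a.adjugate a) j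
        rw [Matrix.adjugate_mul, ← ha] at this
        simp only [Matrix.mulVec, dotProduct, Matrix.smul_apply, Matrix.one_apply, smul_eq_mul,
          mul_ite, mul_one, mul_zero, ite_mul, zero_mul, Finset.sum_ite_eq, Finset.mem_univ,
          if_true] at this
        rw [← this]
        exact Submodule.sum_mem _ fun k _ => Ideal.mul_mem_left _ _ (Ideal.subset_span ⟨k, rfl⟩)
      rw [mul_comm]
      exact h2 u hnu
    simpa [mul_comm u] using add_mem hu h1
  obtain ⟨u, rfl⟩ := huU
  refine ⟨↑u⁻¹ * y, ?_⟩
  have : ↑u⁻¹ * y * z - a.det = ↑u⁻¹ * (y * z - ↑u * a.det) := by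
    rw [mul_sub, Units.inv_mul_cancel_left, mul_assoc]
  rw [this]
  exact Ideal.mul_mem_left _ _ hu

end Local

end Fermat.Agent.Lifting.Criterion
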