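import Fermat.Agent.Lifting.Criterion.Basic
import Fermat.Agent.Lifting.Criterion.Socle
import Fermat.Agent.Patching.PowerSeriesRegular
import Fermat.Agent.RT.Assembly.Coords
import Fermat.Agent.RT.Assembly.Entries
import Fermat.Prelude.Thm_IsLocalRing_isAdicComplete_of_module_finite

/-!
# Presentations of a point by power series

The cotangent module at a point is the cokernel of the linear parts of the relations; the
relations can be chosen regular modulo the uniformiser.
-/

set_option autoImplicit false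
set_option linter.style.haveILetI false

noncomputable section

namespace Fermat.Agent.Lifting.Criterion

open IsLocalRing MvPowerSeries RingTheory.Sequence Fermat.Agent.Patching
open scoped Matrix

variable {O : Type} [CommRing O] {n : ℕ}

local notation "PS" => MvPowerSeries (Fin n) O

/-- The linear part. -/
def linCoeff : MvPowerSeries (Fin n) O →ₗ[O] Fin n → O :=
  LinearMap.pi fun i => coeff (Finsupp.single i 1)

theorem linCoeff_apply (f : PS) (i : Fin n) : linCoeff f i = coeff (Finsupp.single i 1) f := rfl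

theorem linCoeff_mul_X (g : PS) (j : Fin n) :
    linCoeff (g * X j) = Pi.single j (constantCoeff g) := by
  classical
  funext i
  rw [linCoeff_apply, X_def, coeff_mul_monomial, mul_one]
  by_cases h : i = j
  · subst h
    simp [coeff_zero_eq_constantCoeff]
  · rw [Pi.single_eq_of_ne h, if_neg]
    intro hle
    have := hle j
    simp [h] at this

theorem exists_mulVec_X {f : PS} (hf : constantCoeff f = 0) :
    ∃ c : Fin n → PS, ∑ j, c j * X j = f :=
  Ideal.mem_span_range_iff_exists_fun.1 ((mem_span_range_X_iff f).2 hf)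

theorem linCoeff_sum_mul_X (c : Fin n → PS) :
    linCoeff (∑ j, c j * X j) = fun j => constantCoeff (c j) := by
  simp only [map_sum, linCoeff_mul_X]
  exact Finset.univ_sum_single _

theorem linCoeff_mul (g : PS) {f : PS} (hf : constantCoeff f = 0) :
    linCoeff (g * f) = constantCoeff g • linCoeff f := by
  obtain ⟨c, rfl⟩ := exists_mulVec_X hf
  rw [Finset.mul_sum]
  simp only [← mul_assoc, linCoeff_sum_mul_X, map_mul]
  rfl

theorem linCoeff_C_mul_X_sum (v : Fin n → O) :
    linCoeff (∑ j, C (v j) * X j : PS) = v := by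
  rw [linCoeff_sum_mul_X]
  simp

theorem linCoeff_eq_zero_of_mem_sq {f : PS}
    (hf : f ∈ Ideal.span (Set.range (X : Fin n → PS)) ^ 2) : linCoeff f = 0 := by
  rw [sq] at hf
  refine Submodule.mul_induction_on hf (fun a ha b hb => ?_) fun a b ha hb => ?_
  · rw [linCoeff_mul a ((mem_span_range_X_iff b).1 hb), (mem_span_range_X_iff a).1 ha, zero_smul]
  · rw [map_add, ha, hb, add_zero]

section Point

variable {R : Type} [CommRing R] [Algebra O R] (y : R →ₐ[O] O) (γ : MvPowerSeries (Fin n) O →ₐ[O] R)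
  (hγ : ∀ i, y (γ (X i)) = 0)

/-- The linear parts of the relations. -/
def lattice : Submodule O (Fin n → O) :=
  Submodule.map linCoeff ((RingHom.ker γ).restrictScalars O)

include hγ in
theorem apply_eq_constantCoeff (f : PS) : y (γ f) = constantCoeff f := by
  obtain ⟨c, hc⟩ := exists_mulVec_X (f := f - C (constantCoeff f)) (by simp)
  have h : f = algebraMap O PS (constantCoeff f) + ∑ j, c j * X j := by
    rw [hc]
    exact (add_sub_cancel _ _).symm
  conv_lhs => rw [h]
  simp [hγ]

include hγ in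
theorem constantCoeff_eq_zero_of_mem {f : PS} (hf : f ∈ RingHom.ker γ) : constantCoeff f = 0 := by
  rw [← apply_eq_constantCoeff y γ hγ, RingHom.mem_ker.1 hf, map_zero]

/-- Coordinates on the cotangent module. -/
def phiMap : (Fin n → O) →ₗ[O] Phi y :=
  ((Ideal.toCotangent (RingHom.ker y)).restrictScalars O).comp
    (Fintype.linearCombination O fun i =>
      (⟨γ (X i), RingHom.mem_ker.2 (hγ i)⟩ : (RingHom.ker y : Ideal R)))

theorem coe_phiMap (v : Fin n → O) :
    ((Fintype.linearCombination O fun i =>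
      (⟨γ (X i), RingHom.mem_ker.2 (hγ i)⟩ : (RingHom.ker y : Ideal R))) v : R) =
      γ (∑ j, C (v j) * X j) := by
  rw [Fintype.linearCombination_apply, map_sum, AddSubmonoidClass.coe_finsetSum]
  refine Finset.sum_congr rfl fun j _ => ?_
  rw [SetLike.val_smul_of_tower, Algebra.smul_def, map_mul,
    show (C (v j) : PS) = algebraMap O PS (v j) from rfl, AlgHom.commutes]

include hγ in
theorem map_span_X_eq_ker (hsurj : Function.Surjective γ) :
    (Ideal.span (Set.range (X : Fin n → PS))).map γ = RingHom.ker y := by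
  refine le_antisymm (Ideal.map_le_iff_le_comap.2 (Ideal.span_le.2 ?_)) fun z hz => ?_
  · rintro _ ⟨i, rfl⟩
    exact hγ i
  · obtain ⟨f, rfl⟩ := hsurj z
    refine Ideal.mem_map_of_mem _ ((mem_span_range_X_iff f).2 ?_)
    rw [← apply_eq_constantCoeff y γ hγ]
    exact hz

theorem phiMap_surjective (hsurj : Function.Surjective γ) :
    Function.Surjective (phiMap y γ hγ) := by
  intro p
  obtain ⟨⟨z, hz⟩, rfl⟩ := Ideal.toCotangent_surjective _ p
  obtain ⟨f, rfl⟩ := hsurj z
  have hf0 : constantCoeff f = 0 := by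
    rw [← apply_eq_constantCoeff y γ hγ]
    exact hz
  obtain ⟨c, hc⟩ := exists_mulVec_X hf0
  refine ⟨fun j => constantCoeff (c j), ?_⟩
  show Ideal.toCotangent _ _ = _
  rw [Ideal.toCotangent_eq, coe_phiMap y γ hγ, ← map_sub, ← hc, ← Finset.sum_sub_distrib,
    ← map_span_X_eq_ker y γ hγ hsurj, ← Ideal.map_pow]
  refine Ideal.mem_map_of_mem _ (Submodule.sum_mem _ fun j _ => ?_)
  rw [← sub_mul, sq]
  refine Ideal.mul_mem_mul ((mem_span_range_X_iff _).2 (by simp)) (Ideal.subset_span ⟨j, rfl⟩)

theorem ker_phiMap (hsurj : Function.Surjective γ) :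
    LinearMap.ker (phiMap y γ hγ) = lattice γ := by
  ext v
  rw [LinearMap.mem_ker, show phiMap y γ hγ v = Ideal.toCotangent _ _ from rfl,
    Ideal.toCotangent_eq_zero, coe_phiMap y γ hγ, ← map_span_X_eq_ker y γ hγ hsurj, ← Ideal.map_pow,
    Ideal.mem_map_iff_of_surjective γ hsurj]
  constructor
  · rintro ⟨w, hw, hw'⟩
    refine ⟨∑ j, C (v j) * X j - w, ?_, ?_⟩
    · show _ ∈ RingHom.ker γ
      rw [RingHom.mem_ker, map_sub, hw', sub_self]
    · rw [map_sub, linCoeff_C_mul_X_sum, linCoeff_eq_zero_of_mem_sq hw, sub_zero]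
  · rintro ⟨f, hf, rfl⟩
    obtain ⟨c, rfl⟩ := exists_mulVec_X (constantCoeff_eq_zero_of_mem y γ hγ hf)
    refine ⟨∑ j, C (linCoeff (∑ j, c j * X j) j) * X j - ∑ j, c j * X j, ?_, ?_⟩
    · rw [← Finset.sum_sub_distrib]
      refine Submodule.sum_mem _ fun j _ => ?_
      rw [← sub_mul, linCoeff_sum_mul_X, sq]
      exact Ideal.mul_mem_mul ((mem_span_range_X_iff _).2 (by simp)) (Ideal.subset_span ⟨j, rfl⟩)
    · rw [map_sub, RingHom.mem_ker.1 hf, sub_zero]

include hγ in
theorem card_phi (hsurj : Function.Surjective γ) :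
    Nat.card (Phi y) = Nat.card ((Fin n → O) ⧸ lattice γ) := by
  rw [← ker_phiMap y γ hγ hsurj, Nat.card_congr
    ((phiMap y γ hγ).quotKerEquivOfSurjective (phiMap_surjective y γ hγ hsurj)).toEquiv]

theorem linCoeff_mem_lattice {f : PS} (hf : f ∈ RingHom.ker γ) : linCoeff f ∈ lattice γ :=
  Submodule.mem_map_of_mem hf

end Point

variable [IsDomain O] [IsDiscreteValuationRing O]

theorem exists_presentation [IsAdicComplete (maximalIdeal O) O] {R : Type} [CommRing R]
    [IsLocalRing R] [IsNoetherianRing R] [IsAdicComplete (maximalIdeal R) R] [Algebra O R]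
    (y : R →ₐ[O] O) :
    ∃ (n : ℕ) (γ : MvPowerSeries (Fin n) O →ₐ[O] R),
      Function.Surjective γ ∧ ∀ i, y (γ (X i)) = 0 := by
  haveI : IsLocalHom (algebraMap O R) := ⟨fun a ha => by simpa using ha.map y⟩
  obtain ⟨n, s, hs⟩ := Submodule.fg_iff_exists_fin_generating_family.1
    (IsNoetherian.noetherian (RingHom.ker y : Ideal R))
  have hs' : Ideal.span (Set.range s) = RingHom.ker y := hs
  have hle : RingHom.ker y ≤ maximalIdeal R :=
    le_maximalIdeal (RingHom.ker_ne_top y)
  have hsy : ∀ i, s i ∈ RingHom.ker y := fun i => hs' ▸ Ideal.subset_span ⟨i, rfl⟩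
  obtain ⟨γ, hγ⟩ := RT.Assembly.exists_evalHom (O := O) s fun i => hle (hsy i)
  refine ⟨n, γ, RT.Assembly.surjective_evalHom ?_ γ hγ (fun i => hle (hsy i)) ?_,
    fun i => by rw [hγ]; exact hsy i⟩
  · intro z
    obtain ⟨r, rfl⟩ := residue_surjective z
    refine ⟨y r, ?_⟩
    show residue R (algebraMap O R (y r)) = residue R r
    rw [← sub_eq_zero, ← map_sub, residue_eq_zero_iff, ← neg_mem_iff, neg_sub]
    exact hle (sub_mem_ker y r)
  · intro r hr
    rw [hs', ← sub_add_cancel r (algebraMap O R (y r))]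
    refine Submodule.add_mem_sup (sub_mem_ker y r) (Ideal.mem_map_of_mem _ ?_)
    intro hu
    have h1 : algebraMap O R (y r) ∈ maximalIdeal R := by
      simpa using sub_mem hr (hle (sub_mem_ker y r))
    exact h1 (hu.map _)

/-- The order of the cokernel of a square matrix. -/
theorem card_quot_span_range_det {v : Fin n → Fin n → O} (hv : LinearIndependent O v) :
    Nat.card ((Fin n → O) ⧸ Submodule.span O (Set.range v)) =
      Nat.card (O ⧸ Ideal.span {(Matrix.of v).det}) := by
  classical
  let N := Submodule.span O (Set.range v)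
  let bv : Module.Basis (Fin n) O N := Module.Basis.span hv
  let b := Pi.basisFun O (Fin n)
  have hrk : Module.finrank O N = Module.finrank O (Fin n → O) := by
    rw [Module.finrank_eq_card_basis bv, Module.finrank_eq_card_basis b]
  let a := Submodule.smithNormalFormCoeffs b hrk
  let b' := Submodule.smithNormalFormTopBasis b hrk
  let ab := Submodule.smithNormalFormBotBasis b hrk
  let e : (Fin n → O) ≃ₗ[O] (Fin n → O) :=
    (b.equiv bv (Equiv.refl _)).trans (ab.equiv b' (Equiv.refl _))
  let φ := (b.constr O) v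
  let ψ := Matrix.toLin b' b' (Matrix.diagonal a)
  have hψ : ψ.comp (ab.equiv b' (Equiv.refl _)).toLinearMap = N.subtype := by
    refine ab.ext fun i => ?_
    show ψ (ab.equiv b' (Equiv.refl _) (ab i)) = (ab i : Fin n → O)
    rw [Module.Basis.equiv_apply, Equiv.refl_apply,
      Submodule.smithNormalFormBotBasis_def b hrk i, Matrix.toLin_self]
    simp [Matrix.diagonal_apply, a, b', ite_smul]
  have hassoc : Associated (LinearMap.det φ) (LinearMap.det ψ) := by
    refine LinearMap.associated_det_of_eq_comp e _ _ fun x => ?_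
    show φ x = ψ (ab.equiv b' (Equiv.refl _) (b.equiv bv (Equiv.refl _) x))
    refine (LinearMap.congr_fun (?_ : φ = N.subtype.comp (b.equiv bv (Equiv.refl _)).toLinearMap)
      x).trans (LinearMap.congr_fun hψ _).symm
    refine b.ext fun i => ?_
    show φ (b i) = ((b.equiv bv (Equiv.refl _) (b i) : N) : Fin n → O)
    rw [Module.Basis.equiv_apply, Equiv.refl_apply, Module.Basis.constr_basis]
    exact (congrArg Subtype.val (Module.Basis.span_apply hv i)).symm
  have hφ : LinearMap.det φ = (Matrix.of v).det := by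
    rw [← Matrix.det_transpose, ← LinearMap.det_toMatrix b]
    congr 1
    ext i j
    simp [φ, b, Pi.single_apply, ite_apply]
  have hψd : LinearMap.det ψ = ∏ i, a i := by
    rw [LinearMap.det_toLin, Matrix.det_diagonal]
  rw [hφ, hψd] at hassoc
  rw [Ideal.span_singleton_eq_span_singleton.2 hassoc,
    card_quot_span_prod Finset.univ (fun i _ => ?_),
    Nat.card_congr (N.quotientEquivPiSpan b hrk).toEquiv, Nat.card_pi]
  intro h
  refine ab.ne_zero i (Subtype.ext ?_)
  rw [Submodule.smithNormalFormBotBasis_def b hrk i]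
  exact smul_eq_zero_of_left h _

/-- The system of parameters `ϖ, X₁, …, Xₙ`. -/
def param (ϖ : O) : Fin (n + 1) → PS := Fin.cons (C ϖ) X

theorem isRegular_param {ϖ : O} (hϖ : Irreducible ϖ) :
    IsRegular PS (List.ofFn (param (n := n) ϖ)) := by
  have hreg : IsWeaklyRegular PS (paramSeq n ϖ) :=
    isWeaklyRegular_paramSeq n (IsLeftRegular.isSMulRegular (IsLeftCancelMulZero.mul_left_cancel_of_ne_zero hϖ.ne_zero))
  have hp : IsRegular PS (paramSeq n ϖ) :=
    IsRegular.of_isWeaklyRegular_of_mem_maximalIdeal _ (fun r hr => by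
      rw [← ofList_paramSeq n hϖ]
      exact Ideal.subset_span hr) hreg
  refine IsLocalRing.isRegular_of_perm hp ?_
  rw [param, List.ofFn_succ, Fin.cons_zero, paramSeq]
  simpa only [Fin.cons_succ] using List.perm_append_singleton _ _

theorem span_range_param {ϖ : O} (hϖ : Irreducible ϖ) :
    Ideal.span (Set.range (param (n := n) ϖ)) = maximalIdeal PS := by
  rw [← ofList_paramSeq n hϖ, paramSeq, Ideal.ofList_append, ofList_ofFn, Ideal.ofList_singleton,
    param, Fin.range_cons, Ideal.span_insert, sup_comm]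

theorem param_minimal {ϖ : O} (hϖ : Irreducible ϖ) (c : Fin (n + 1) → PS)
    (h : ∑ j, c j * param ϖ j = 0) : ∀ j, c j ∈ maximalIdeal PS := by
  rw [Fin.sum_univ_succ] at h
  simp only [param, Fin.cons_zero, Fin.cons_succ] at h
  have h0 : constantCoeff (c 0) = 0 := by
    have := congrArg constantCoeff h
    simp at this
    exact this.resolve_right hϖ.ne_zero
  have h1 : ∀ j : Fin n, constantCoeff (c j.succ) ∈ maximalIdeal O := by
    intro j
    have := congrFun (congrArg linCoeff h) j
    rw [map_add, map_zero, linCoeff_sum_mul_X, mul_comm (c 0),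
      show (C ϖ : PS) * c 0 = ϖ • c 0 from (smul_eq_C_mul _ _).symm, map_smul] at this
    simp only [Pi.add_apply, Pi.smul_apply, Pi.zero_apply, smul_eq_mul] at this
    rw [eq_neg_of_add_eq_zero_right this]
    exact neg_mem (Ideal.mul_mem_right _ _ (hϖ.maximalIdeal_eq ▸ Ideal.mem_span_singleton_self ϖ))
  intro j
  rw [mem_maximalIdeal, mem_nonunits_iff, isUnit_iff_constantCoeff]
  refine Fin.cases ?_ ?_ j
  · rw [h0]
    exact not_isUnit_zero
  · exact fun j => h1 j

/-- The ideal of the relations and the uniformiser. -/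
def relIdealMod (f : Fin n → PS) (ϖ : O) : Ideal PS :=
  Ideal.span (Set.range f) ⊔ Ideal.span {C ϖ}

theorem span_range_cons (f : Fin n → PS) (ϖ : O) :
    Ideal.span (Set.range (Fin.cons (C ϖ) f : Fin (n + 1) → PS)) = relIdealMod f ϖ := by
  rw [relIdealMod, Fin.range_cons, Ideal.span_insert, sup_comm]

/-- The block matrix `diag (1, a)`. -/
def blockMat (a : Matrix (Fin n) (Fin n) PS) : Matrix (Fin (n + 1)) (Fin (n + 1)) PS :=
  Matrix.of (Fin.cons (Fin.cons 1 0) fun i => Fin.cons 0 (a i))

omit [IsDomain O] [IsDiscreteValuationRing O] in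
theorem det_blockMat (a : Matrix (Fin n) (Fin n) PS) : (blockMat a).det = a.det := by
  rw [Matrix.det_succ_row_zero, Finset.sum_eq_single 0 (fun j _ hj => ?_) (by simp)]
  · simp [blockMat, Matrix.submatrix]
    rfl
  · obtain ⟨k, rfl⟩ := Fin.exists_succ_eq_of_ne_zero hj
    simp [blockMat]

omit [IsDomain O] [IsDiscreteValuationRing O] in
theorem cons_eq_blockMat_mulVec {f : Fin n → PS} {a : Matrix (Fin n) (Fin n) PS}
    (ha : f = a *ᵥ X) (ϖ : O) : Fin.cons (C ϖ) f = blockMat a *ᵥ param ϖ := by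
  funext i
  refine Fin.cases ?_ (fun i => ?_) i
  · simp [blockMat, param, Matrix.mulVec, dotProduct, Fin.sum_univ_succ]
  · simp [blockMat, param, Matrix.mulVec, dotProduct, Fin.sum_univ_succ, ha]

variable {f : Fin n → MvPowerSeries (Fin n) O} {a : Matrix (Fin n) (Fin n) (MvPowerSeries (Fin n) O)}
  {ϖ : O}

theorem det_notMem_relIdealMod (hϖ : Irreducible ϖ)
    (hreg : IsRegular PS (List.ofFn (Fin.cons (C ϖ) f : Fin (n + 1) → PS))) (ha : f = a *ᵥ X) :
    a.det ∉ relIdealMod f ϖ := by
  rw [← det_blockMat, ← span_range_cons]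
  exact (socleDet (isRegular_param hϖ) (span_range_param hϖ) (param_minimal hϖ) hreg _
    (cons_eq_blockMat_mulVec ha ϖ)).1

theorem socle_relIdealMod (hϖ : Irreducible ϖ)
    (hreg : IsRegular PS (List.ofFn (Fin.cons (C ϖ) f : Fin (n + 1) → PS))) (ha : f = a *ᵥ X)
    {z : PS} (hz : ∀ w ∈ maximalIdeal PS, w * z ∈ relIdealMod f ϖ) :
    ∃ u, z - u * a.det ∈ relIdealMod f ϖ := by
  rw [← det_blockMat, ← span_range_cons]
  rw [← span_range_cons] at hz
  exact (socleDet (isRegular_param hϖ) (span_range_param hϖ) (param_minimal hϖ) hreg _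
    (cons_eq_blockMat_mulVec ha ϖ)).2 z hz

theorem exists_mul_sub_det_mem_relIdealMod (hϖ : Irreducible ϖ)
    (hreg : IsRegular PS (List.ofFn (Fin.cons (C ϖ) f : Fin (n + 1) → PS))) (ha : f = a *ᵥ X)
    {z : PS} (hz : z ∉ relIdealMod f ϖ) : ∃ t, t * z - a.det ∈ relIdealMod f ϖ := by
  rw [← det_blockMat, ← span_range_cons]
  rw [← span_range_cons] at hz
  exact exists_mul_sub_det_mem (isRegular_param hϖ) (span_range_param hϖ) (param_minimal hϖ)
    hreg (cons_eq_blockMat_mulVec ha ϖ) hz

/-- Relations with prescribed linear parts can be made regular modulo the uniformiser. -/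
theorem exists_regular_relations (hϖ : Irreducible ϖ) {J : Ideal PS}
    (hJ0 : ∀ g ∈ J, constantCoeff g = 0)
    (hrad : ∀ i, X i ∈ (J ⊔ Ideal.span {C ϖ}).radical) (f : Fin n → PS) (hf : ∀ i, f i ∈ J) :
    ∃ f' : Fin n → PS, (∀ i, f' i ∈ J) ∧ (∀ i, linCoeff (f' i) = linCoeff (f i)) ∧
      IsRegular PS (List.ofFn (Fin.cons (C ϖ) f' : Fin (n + 1) → PS)) := by
  classical
  have hCm : (C ϖ : PS) ∈ maximalIdeal PS := by
    rw [← span_range_param hϖ]
    exact Ideal.subset_span ⟨0, by simp [param]⟩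
  have hJm : J ≤ maximalIdeal PS := fun g hg => by
    rw [mem_maximalIdeal, mem_nonunits_iff, isUnit_iff_constantCoeff, hJ0 g hg]
    exact not_isUnit_zero
  suffices H : ∀ (k : ℕ) (hk : k ≤ n), ∃ g : Fin k → PS, (∀ i, g i ∈ J) ∧
      (∀ i, linCoeff (g i) = linCoeff (f (Fin.castLE hk i))) ∧
      IsRegular PS (List.ofFn (Fin.cons (C ϖ) g : Fin (k + 1) → PS)) by
    obtain ⟨g, h1, h2, h3⟩ := H n le_rfl
    exact ⟨g, h1, fun i => h2 i, h3⟩
  intro k
  induction k with
  | zero =>
    intro _
    refine ⟨Fin.elim0, fun i => i.elim0, fun i => i.elim0, ?_⟩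
    have hnzd : NZDMod (Ideal.ofList ([] : List PS)) (C ϖ) := fun z hz => by
      rw [Ideal.ofList_nil] at hz ⊢
      refine Ideal.mem_bot.2 (MvPowerSeries.ext fun m => ?_)
      have := congrArg (coeff m) (Ideal.mem_bot.1 hz)
      rw [coeff_C_mul, map_zero] at this
      rw [map_zero]
      exact (mul_eq_zero.1 this).resolve_left hϖ.ne_zero
    simpa using isRegular_append (IsWeaklyRegular.nil PS PS) (by simp) hCm hnzd
  | succ k ih =>
    intro hk
    obtain ⟨g, hgJ, hgL, hreg⟩ := ih (by omega)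
    set I' := Ideal.span (Set.range (Fin.cons (C ϖ) g : Fin (k + 1) → PS))
    set I₂ := J ⊓ Ideal.span (Set.range (X : Fin n → PS)) ^ 2
    let S := (associatedPrimes.finite PS (PS ⧸ I')).toFinset
    have hS : ∀ q ∈ S, ¬ I₂ ≤ q := by
      intro q hq hle
      rw [Set.Finite.mem_toFinset] at hq
      haveI := hq.1
      have hI'q : I' ≤ q := by
        intro w hw
        obtain ⟨hp, z, rfl⟩ := isAssociatedPrime_iff.1 hq
        obtain ⟨z, rfl⟩ := Ideal.Quotient.mk_surjective z
        rw [Submodule.mem_colon_singleton, Submodule.mem_bot]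
        exact Ideal.Quotient.eq_zero_iff_mem.2 (I'.mul_mem_right _ hw)
      have hJq : J ≤ q := fun w hw => by
        refine (Ideal.IsPrime.mem_of_pow_mem ‹_› 2 (hle ⟨?_, ?_⟩))
        · exact Ideal.pow_mem_of_mem _ hw 2 (by norm_num)
        · exact Ideal.pow_mem_pow ((mem_span_range_X_iff w).2 (hJ0 w hw)) 2
      have hmq : maximalIdeal PS ≤ q := by
        rw [← span_range_param hϖ, param, Fin.range_cons, Ideal.span_le]
        rintro w (rfl | ⟨i, rfl⟩)
        · exact hI'q (Ideal.subset_span ⟨0, by simp⟩)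
        · exact (Ideal.IsPrime.radical_le_iff ‹_›).2 (sup_le hJq (Ideal.span_le.2
            (Set.singleton_subset_iff.2 (hI'q (Ideal.subset_span ⟨0, by simp⟩))))) (hrad i)
      obtain ⟨z, hz, hz'⟩ := exists_of_mem_associatedPrimes hq
      exact hz (socle_eq_of_short (by omega) (isRegular_param hϖ) hreg fun w hw => hz' w (hmq hw))
    obtain ⟨d, hd, hd'⟩ := exists_add_notMem S (fun q hq => by
      rw [Set.Finite.mem_toFinset] at hq
      exact hq.1) hS (f (Fin.castLE hk (Fin.last k)))
    have hmem : f (Fin.castLE hk (Fin.last k)) + d ∈ J := add_mem (hf _) hd.1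
    refine ⟨Fin.snoc g (f (Fin.castLE hk (Fin.last k)) + d), ?_, ?_, ?_⟩
    · intro i
      refine Fin.lastCases ?_ (fun i => ?_) i
      · simpa using hmem
      · simpa using hgJ i
    · intro i
      refine Fin.lastCases ?_ (fun i => ?_) i
      · rw [Fin.snoc_last, map_add, linCoeff_eq_zero_of_mem_sq hd.2, add_zero]
      · rw [Fin.snoc_castSucc, hgL]
        rfl
    · rw [Fin.cons_snoc_eq_snoc_cons]
      rw [List.ofFn_succ', Fin.snoc_last, List.concat_eq_append]
      simp only [Fin.snoc_castSucc]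
      refine isRegular_append hreg.toIsWeaklyRegular (fun r hr => ?_) (hJm hmem) ?_
      · obtain ⟨i, rfl⟩ := List.mem_ofFn.1 hr
        exact mem_maximalIdeal_of_isRegular hreg i
      · rw [ofList_ofFn]
        exact nzdMod_of_forall_notMem fun q hq => hd' q (by rwa [Set.Finite.mem_toFinset])

theorem radical_X_mem [IsAdicComplete (maximalIdeal O) O] (hϖ : Irreducible ϖ) {T : Type}
    [CommRing T] [IsLocalRing T] [Algebra O T] [Module.Finite O T] (x : T →ₐ[O] O)
    (γ : MvPowerSeries (Fin n) O →ₐ[O] T) (hsurj : Function.Surjective γ)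
    (hγ : ∀ i, x (γ (X i)) = 0) (i : Fin n) :
    (X i : PS) ∈ (RingHom.ker γ ⊔ Ideal.span {C ϖ}).radical := by
  obtain ⟨N, hN⟩ := RT.Assembly.exists_pow_le_map (O := O) (A := T)
  refine ⟨N, ?_⟩
  have hX : γ (X i) ∈ maximalIdeal T :=
    le_maximalIdeal (RingHom.ker_ne_top x) (RingHom.mem_ker.2 (hγ i))
  have hpow := hN (Ideal.pow_mem_pow hX N)
  rw [hϖ.maximalIdeal_eq, Ideal.map_span, Set.image_singleton, Ideal.mem_span_singleton'] at hpow
  obtain ⟨w, hw⟩ := hpow
  obtain ⟨w, rfl⟩ := hsurj w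
  refine Submodule.mem_sup.2 ⟨X i ^ N - w * C ϖ, ?_, w * C ϖ,
    Ideal.mem_span_singleton'.2 ⟨w, rfl⟩, sub_add_cancel _ _⟩
  rw [RingHom.mem_ker, map_sub, map_mul, map_pow, ← hw,
    show (C ϖ : PS) = algebraMap O PS ϖ from rfl, AlgHom.commutes, sub_self]

end Fermat.Agent.Lifting.Criterion
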